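/-
Rigidified line bundles on `C × Spec R` and normalised triples.
-/
import Fermat.Agent.Picard.Bridge.Hom
import Fermat.Agent.Picard.Rigid.Descent
import Fermat.Agent.Picard.Algebra.Statements

set_option autoImplicit false

universe u

open CategoryTheory CategoryTheory.Limits AlgebraicGeometry TopologicalSpace Opposite NeronModelInfra
  AlgebraicGeometry.RelPicard
open scoped TensorProduct

namespace Fermat.Agent.Picard

noncomputable section

variable {R : Type u} [CommRing R]

/-- Functions on `Spec R`. -/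
def specΓEquiv (R : Type u) [CommRing R] : R ≃+* Γ(Spec (CommRingCat.of R), ⊤) :=
  (Scheme.ΓSpecIso (CommRingCat.of R)).symm.commRingCatIsoToRingEquiv

/-- Global sections over `Spec R`, as a module over `R`. -/
def SecR (N : (Spec (CommRingCat.of R)).Modules) : Type u := Γ(N, ⊤)

instance (N : (Spec (CommRingCat.of R)).Modules) : AddCommGroup (SecR N) :=
  inferInstanceAs (AddCommGroup Γ(N, ⊤))

instance (N : (Spec (CommRingCat.of R)).Modules) : Module R (SecR N) :=
  Module.compHom Γ(N, ⊤) (specΓEquiv R).toRingHom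

instance (N : (Spec (CommRingCat.of R)).Modules) :
    Module Γ(Spec (CommRingCat.of R), ⊤) (SecR N) :=
  inferInstanceAs (Module Γ(Spec (CommRingCat.of R), ⊤) Γ(N, ⊤))

/-- An invertible module on an affine scheme with free global sections is trivial. -/
lemma nonempty_iso_OO_iff (N : (Spec (CommRingCat.of R)).Modules)
    (hN : Scheme.Modules.IsInvertible N) :
    Nonempty (N ≅ OO (Spec (CommRingCat.of R))) ↔ Nonempty (SecR N ≃ₗ[R] R) := by
  constructor
  · rintro ⟨φ⟩
    exact ⟨
      { toFun := fun n ↦ (specΓEquiv R).symm (toFun (φ.hom.app ⊤ (show Γ(N, ⊤) from n)))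
        invFun := fun r ↦ φ.inv.app ⊤ (ofFun (specΓEquiv R r))
        map_add' := fun m n ↦ by
          rw [← map_add]
          exact congrArg (specΓEquiv R).symm (congrArg toFun
            (map_add (φ.hom.app ⊤).hom (show Γ(N, ⊤) from m) (show Γ(N, ⊤) from n)))
        map_smul' := fun r n ↦ by
          change (specΓEquiv R).symm (toFun (φ.hom.app ⊤ (specΓEquiv R r • (show Γ(N, ⊤) from n)))) =
            r * _
          rw [φ.hom.app_smul, toFun_smul, map_mul, RingEquiv.symm_apply_apply]
        left_inv := fun n ↦ by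
          change φ.inv.app ⊤ (ofFun (specΓEquiv R ((specΓEquiv R).symm _))) = n
          rw [RingEquiv.apply_symm_apply, ofFun_toFun]
          exact CategoryTheory.congr_fun (congrArg (fun f ↦ Scheme.Modules.Hom.app f ⊤)
            φ.hom_inv_id) (show Γ(N, ⊤) from n)
        right_inv := fun r ↦ by
          change (specΓEquiv R).symm (toFun (φ.hom.app ⊤ (φ.inv.app ⊤ _))) = r
          have e : φ.hom.app ⊤ (φ.inv.app ⊤ (ofFun (specΓEquiv R r))) = ofFun (specΓEquiv R r) :=
            CategoryTheory.congr_fun (congrArg (fun f ↦ Scheme.Modules.Hom.app f ⊤) φ.inv_hom_id) _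
          rw [e, toFun_ofFun, RingEquiv.symm_apply_apply] }⟩
  · rintro ⟨θ⟩
    have hU : IsAffineOpen (⊤ : (Spec (CommRingCat.of R)).Opens) := isAffineOpen_top _
    have hOO : Scheme.Modules.IsInvertible (OO (Spec (CommRingCat.of R))) :=
      Scheme.Modules.isInvertible_unit _
    let ψ : Γ(N, ⊤) →ₗ[Γ(Spec (CommRingCat.of R), ⊤)] Γ(OO (Spec (CommRingCat.of R)), ⊤) :=
      { toFun := fun n ↦ ofFun (specΓEquiv R (θ (show SecR N from n)))
        map_add' := fun m n ↦ by
          apply Function.LeftInverse.injective (g := ofFun) ofFun_toFun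
          change specΓEquiv R (θ ((show SecR N from m) + (show SecR N from n))) = _
          rw [map_add, map_add]
          rfl
        map_smul' := fun a n ↦ by
          obtain ⟨r, rfl⟩ := (specΓEquiv R).surjective a
          apply Function.LeftInverse.injective (g := ofFun) ofFun_toFun
          change specΓEquiv R (θ (r • (show SecR N from n))) = _
          rw [map_smul, smul_eq_mul, map_mul]
          rfl }
    let ψ' : Γ(OO (Spec (CommRingCat.of R)), ⊤) →ₗ[Γ(Spec (CommRingCat.of R), ⊤)] Γ(N, ⊤) :=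
      { toFun := fun a ↦ θ.symm ((specΓEquiv R).symm (toFun a))
        map_add' := fun a b ↦ by
          change θ.symm ((specΓEquiv R).symm (toFun a + toFun b)) = _
          rw [map_add, map_add]
          rfl
        map_smul' := fun a b ↦ by
          obtain ⟨r, rfl⟩ := (specΓEquiv R).surjective a
          change θ.symm ((specΓEquiv R).symm (toFun (specΓEquiv R r • b))) =
            (show Γ(N, ⊤) from r • θ.symm ((specΓEquiv R).symm (toFun b)))
          rw [toFun_smul, map_mul, RingEquiv.symm_apply_apply, ← smul_eq_mul, map_smul] }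
    obtain ⟨F, hF⟩ := exists_homOn_of_linear hN hU ψ
    obtain ⟨G, hG⟩ := exists_homOn_of_linear hOO hU ψ'
    have hFG : F.IsIso := fun V hV ↦ by
      refine ⟨Function.LeftInverse.injective (g := G.app V hV) fun m ↦ ?_,
        Function.RightInverse.surjective (g := G.app V hV) fun m ↦ ?_⟩
      · exact homOn_ext_affine hN hU (F.comp G) (HomOn.id N _) (fun a ↦ by
          rw [HomOn.comp_app, HomOn.id_app, hF, hG]
          change θ.symm ((specΓEquiv R).symm (toFun (ofFun (specΓEquiv R (θ _))))) = _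
          rw [toFun_ofFun, RingEquiv.symm_apply_apply, LinearEquiv.symm_apply_apply]) hV m
      · exact homOn_ext_affine hOO hU (G.comp F) (HomOn.id _ _) (fun a ↦ by
          rw [HomOn.comp_app, HomOn.id_app, hG, hF]
          change ofFun (specΓEquiv R (θ (θ.symm ((specΓEquiv R).symm (toFun a))))) = a
          rw [LinearEquiv.apply_symm_apply, RingEquiv.apply_symm_apply, ofFun_toFun]) hV m
    obtain ⟨φ, -⟩ := hFG.exists_iso hN
    exact ⟨φ⟩

variable {k : Type u} [Field k] {C : Scheme.{u}} {c : C ⟶ Spec (CommRingCat.of k)}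
  {ε : SchemeHomOver (𝟙 (Spec (CommRingCat.of k))) c} (𝓒 : CurveModel c ε) [Algebra k R]

namespace CurveModel

variable {M : (pullback c (specTo k R)).Modules} (hM : Scheme.Modules.IsInvertible M)

/-- Restriction to the marked section. -/
def epsSec : 𝓒.SecA M →ₛₗ[𝓒.X.evalε R]
    SecR ((Scheme.Modules.pullback (rigSection c (specTo k R) ε)).obj M) where
  toFun m := pullSecTo (rigSection c (specTo k R) ε) M (𝓒.rigSection_preimage_WA R).ge m
  map_add' m m' := map_add (pullSecTo (rigSection c (specTo k R) ε) M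
    (𝓒.rigSection_preimage_WA R).ge) _ _
  map_smul' a m := by
    change pullSecTo (rigSection c (specTo k R) ε) M (𝓒.rigSection_preimage_WA R).ge
        (𝓒.φA R a • (show Γ(M, 𝓒.WA R) from m)) =
      specΓEquiv R (𝓒.X.evalε R a) • pullSecTo (rigSection c (specTo k R) ε) M
        (𝓒.rigSection_preimage_WA R).ge (show Γ(M, 𝓒.WA R) from m)
    rw [LinearMap.map_smulₛₗ]
    congr 1
    exact 𝓒.rigSection_appLE_φA R a _

include hM in
lemma isScalarExtension_epsSec : IsScalarExtension (𝓒.X.evalε R) (𝓒.epsSec (M := M)) :=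
  isScalarExtension_transport _ _ (𝓒.φA R) (specΓEquiv R)
    (fun a ↦ (𝓒.rigSection_appLE_φA R a (𝓒.rigSection_preimage_WA R).ge).symm)
    (P := 𝓒.SecA M) (Q := SecR ((Scheme.Modules.pullback (rigSection c (specTo k R) ε)).obj M))
    (fun _ _ ↦ rfl) (fun _ _ ↦ rfl)
    (pullSecTo (rigSection c (specTo k R) ε) M (𝓒.rigSection_preimage_WA R).ge) _ (fun _ ↦ rfl)
    (isScalarExtension_pullSecTo _ M hM (𝓒.rigSection_preimage_WA R)
      (𝓒.chartA.isAffineOpen_W R) (isAffineOpen_top _))

instance (M : (pullback c (specTo k R)).Modules) :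
    Module Γ(pullback c (specTo k R), 𝓒.WA R) (𝓒.SecA M) :=
  inferInstanceAs (Module Γ(pullback c (specTo k R), 𝓒.WA R) Γ(M, 𝓒.WA R))

/-- The triple is normalised exactly when the sheaf is trivial along the section. -/
theorem normalised_toTri_iff :
    (𝓒.toTri M hM).Normalised ↔ Nonempty ((Scheme.Modules.pullback (rigSection c (specTo k R) ε)).obj M ≅
      SheafOfModules.unit (Spec (CommRingCat.of R)).ringCatSheaf) := by
  rw [nonempty_iso_OO_iff _ (hM.pullback _)]
  have h := 𝓒.isScalarExtension_epsSec hM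
  constructor
  · rintro ⟨g, hg⟩
    exact ⟨h.equiv (g' := g) hg⟩
  · rintro ⟨θ⟩
    exact ⟨{ toFun := fun m ↦ θ (𝓒.epsSec m)
             map_add' := fun m m' ↦ (congrArg θ ((𝓒.epsSec (M := M)).map_add m m')).trans
               (map_add θ _ _)
             map_smul' := fun a m ↦ (congrArg θ ((𝓒.epsSec (M := M)).map_smulₛₗ a m)).trans
               (map_smul θ _ _) }, h.of_equiv θ fun _ ↦ rfl⟩

/-- The triple of a rigidified line bundle. -/
abbrev triOf (L : RigidifiedLineBundle c ε (specTo k R)) : 𝓒.X.Tri R :=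
  𝓒.toTri L.L L.isInvertible

lemma normalised_triOf (L : RigidifiedLineBundle c ε (specTo k R)) : (𝓒.triOf L).Normalised :=
  (𝓒.normalised_toTri_iff L.isInvertible).2 L.rigidified

lemma nonempty_equiv_triOf_iff (L L' : RigidifiedLineBundle c ε (specTo k R)) :
    Nonempty ((𝓒.triOf L).Equiv (𝓒.triOf L')) ↔ Nonempty (L.L ≅ L'.L) :=
  ⟨fun ⟨e⟩ ↦ 𝓒.nonempty_iso_of_equiv L.isInvertible L'.isInvertible e,
    fun ⟨i⟩ ↦ ⟨𝓒.equivOfIso L.isInvertible L'.isInvertible i⟩⟩

lemma exists_triOf_equiv (L : 𝓒.X.Tri R) (hL : L.Normalised) :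
    ∃ M : RigidifiedLineBundle c ε (specTo k R), Nonempty ((𝓒.triOf M).Equiv L) := by
  have h := 𝓒.toTri_ofTri L
  refine ⟨⟨𝓒.ofTri L, 𝓒.isInvertible_ofTri L, (𝓒.normalised_toTri_iff (𝓒.isInvertible_ofTri L)).1
    (hL.congr h.symm)⟩, ⟨h⟩⟩

/-- The triple of a pulled back bundle. -/
def triOfPullback {R' : Type u} [CommRing R'] [Algebra k R'] (f : R →ₐ[k] R')
    (L : RigidifiedLineBundle c ε (specTo k R)) :
    TwoChart.Tri.Pullback f (𝓒.triOf L) (𝓒.triOf (L.pullbackAlong (AffineChart.baseMap f))) :=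
  𝓒.toTriPullback f L.L L.isInvertible

end CurveModel

end

end Fermat.Agent.Picard
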