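/-
Fibrewise algebraic equivalence to zero is degree zero of the triples on affine test schemes.
-/
import Fermat.Agent.Picard.Bridge.Hom
import Fermat.Agent.Picard.Algebra.Statements
import Fermat.Agent.Picard.Algebra.Loci
import Fermat.Agent.Picard.Points.Covering
import Fermat.Prelude.Def_AlgebraicGeometry_RelPicardAlgEquivZeroCut

set_option autoImplicit false

universe u

open CategoryTheory CategoryTheory.Limits AlgebraicGeometry TopologicalSpace Opposite NeronModelInfra
  AlgebraicGeometry.RelPicard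
open scoped TensorProduct

namespace Fermat.Agent.Picard

noncomputable section

variable {k : Type u} [Field k] {C : Scheme.{u}} {c : C ⟶ Spec (CommRingCat.of k)}
  {ε : SchemeHomOver (𝟙 (Spec (CommRingCat.of k))) c} (𝓒 : CurveModel c ε)

@[reassoc]
lemma baseChangeSnd_fst' {C' T₁ T₂ : Scheme.{u}} {R' : Type u} [CommRing R']
    (c' : C' ⟶ Spec (CommRingCat.of R')) {t₁ : T₁ ⟶ Spec (CommRingCat.of R')}
    {t₂ : T₂ ⟶ Spec (CommRingCat.of R')} (g : SchemeHomOver t₂ t₁) :
    baseChangeSnd c' g ≫ pullback.fst c' t₁ = pullback.fst c' t₂ :=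
  (pullback.lift_fst _ _ _).trans (Category.comp_id _)

@[reassoc]
lemma baseChangeSnd_snd' {C' T₁ T₂ : Scheme.{u}} {R' : Type u} [CommRing R']
    (c' : C' ⟶ Spec (CommRingCat.of R')) {t₁ : T₁ ⟶ Spec (CommRingCat.of R')}
    {t₂ : T₂ ⟶ Spec (CommRingCat.of R')} (g : SchemeHomOver t₂ t₁) :
    baseChangeSnd c' g ≫ pullback.snd c' t₁ = pullback.snd c' t₂ ≫ g.1 :=
  pullback.lift_snd _ _ _

namespace CurveModel

/-- The triple of the structure sheaf is the trivial triple. -/
def toTriUnitEquiv (R : Type u) [CommRing R] [Algebra k R] :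
    (𝓒.toTri (SheafOfModules.unit (Limits.pullback c (specTo k R)).ringCatSheaf)
      (Scheme.Modules.isInvertible_unit _)).Equiv (𝓒.X.trivialTri R) where
  eA :=
    { toFun := fun m ↦ (𝓒.φA R).symm (show Γ(Limits.pullback c (specTo k R), 𝓒.WA R) from m)
      map_add' := fun m m' ↦ map_add (𝓒.φA R).symm (show Γ(Limits.pullback c (specTo k R), 𝓒.WA R) from m) (show Γ(Limits.pullback c (specTo k R), 𝓒.WA R) from m')
      map_smul' := fun a m ↦ by
        change (𝓒.φA R).symm (𝓒.φA R a * (show Γ(Limits.pullback c (specTo k R), 𝓒.WA R) from m)) =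
          a * (𝓒.φA R).symm (show Γ(Limits.pullback c (specTo k R), 𝓒.WA R) from m)
        rw [map_mul, RingEquiv.symm_apply_apply]
      invFun := fun a ↦ (show Γ(Limits.pullback c (specTo k R), 𝓒.WA R) from 𝓒.φA R a)
      left_inv := fun m ↦ (𝓒.φA R).apply_symm_apply _
      right_inv := fun a ↦ (𝓒.φA R).symm_apply_apply _ }
  eB :=
    { toFun := fun m ↦ (𝓒.φB R).symm (show Γ(Limits.pullback c (specTo k R), 𝓒.WB R) from m)
      map_add' := fun m m' ↦ map_add (𝓒.φB R).symm (show Γ(Limits.pullback c (specTo k R), 𝓒.WB R) from m) (show Γ(Limits.pullback c (specTo k R), 𝓒.WB R) from m')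
      map_smul' := fun a m ↦ by
        change (𝓒.φB R).symm (𝓒.φB R a * (show Γ(Limits.pullback c (specTo k R), 𝓒.WB R) from m)) =
          a * (𝓒.φB R).symm (show Γ(Limits.pullback c (specTo k R), 𝓒.WB R) from m)
        rw [map_mul, RingEquiv.symm_apply_apply]
      invFun := fun a ↦ (show Γ(Limits.pullback c (specTo k R), 𝓒.WB R) from 𝓒.φB R a)
      left_inv := fun m ↦ (𝓒.φB R).apply_symm_apply _
      right_inv := fun a ↦ (𝓒.φB R).symm_apply_apply _ }
  eW :=
    { toFun := fun m ↦ (𝓒.φW R).symm (show Γ(Limits.pullback c (specTo k R), 𝓒.WW R) from m)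
      map_add' := fun m m' ↦ map_add (𝓒.φW R).symm (show Γ(Limits.pullback c (specTo k R), 𝓒.WW R) from m) (show Γ(Limits.pullback c (specTo k R), 𝓒.WW R) from m')
      map_smul' := fun a m ↦ by
        change (𝓒.φW R).symm (𝓒.φW R a * (show Γ(Limits.pullback c (specTo k R), 𝓒.WW R) from m)) =
          a * (𝓒.φW R).symm (show Γ(Limits.pullback c (specTo k R), 𝓒.WW R) from m)
        rw [map_mul, RingEquiv.symm_apply_apply]
      invFun := fun a ↦ (show Γ(Limits.pullback c (specTo k R), 𝓒.WW R) from 𝓒.φW R a)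
      left_inv := fun m ↦ (𝓒.φW R).apply_symm_apply _
      right_inv := fun a ↦ (𝓒.φW R).symm_apply_apply _ }
  commA m := by
    have key : ∀ z : Γ(Limits.pullback c (specTo k R), 𝓒.WA R),
        (𝓒.φW R).symm (ores _ (𝓒.WW_le_WA R) z) = 𝓒.X.resA R ((𝓒.φA R).symm z) := fun z ↦ by
      rw [RingEquiv.symm_apply_eq, ← res_φA, RingEquiv.apply_symm_apply]
    exact key m
  commB m := by
    have key : ∀ z : Γ(Limits.pullback c (specTo k R), 𝓒.WB R),
        (𝓒.φW R).symm (ores _ (𝓒.WW_le_WB R) z) = 𝓒.X.resB R ((𝓒.φB R).symm z) := fun z ↦ by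
      rw [RingEquiv.symm_apply_eq, ← res_φB, RingEquiv.apply_symm_apply]
    exact key m

section TriAt

variable {T : Scheme.{u}} {t : T ⟶ Spec (CommRingCat.of k)}
  (N : (Limits.pullback c t).Modules) (hN : Scheme.Modules.IsInvertible N)

/-- The triple of a sheaf at an affine valued point of the base. -/
def triAt {R : Type u} [CommRing R] [Algebra k R] (g : SchemeHomOver (specTo k R) t) : 𝓒.X.Tri R :=
  𝓒.toTri ((Scheme.Modules.pullback (baseChangeSnd c g)).obj N) (hN.pullback _)

/-- Compatibility with change of the point. -/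
lemma nonempty_triAt_pullback {R R' : Type u} [CommRing R] [Algebra k R] [CommRing R'] [Algebra k R']
    (f : R →ₐ[k] R') (g : SchemeHomOver (specTo k R) t) (g' : SchemeHomOver (specTo k R') t)
    (hg : g'.1 = (AffineChart.baseMap f).1 ≫ g.1) :
    Nonempty (TwoChart.Tri.Pullback f (𝓒.triAt N hN g) (𝓒.triAt N hN g')) := by
  have hsq : baseChangeSnd c (AffineChart.baseMap f) ≫ baseChangeSnd c g = baseChangeSnd c g' := by
    rw [baseChangeSnd_comp]
    congr 1
    exact Subtype.ext hg.symm
  exact ⟨(𝓒.toTriPullback f _ (hN.pullback _)).congrRight (𝓒.equivOfIso _ _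
    ((Scheme.Modules.pullbackComp _ _).app N ≪≫ (Scheme.Modules.pullbackCongr hsq).app N))⟩

/-- On an affine open of an integral base the Euler characteristic is constant. -/
lemma exists_index_const [IsIntegral T] {U : T.Opens} (hU : IsAffineOpen U) [Nonempty U] :
    ∃ n : ℤ, ∀ (K : Type u) [Field K] [Algebra k K] (g : SchemeHomOver (specTo k K) t),
      (∀ p, g.1 p ∈ U) → (𝓒.triAt N hN g).diff.index = n := by
  let A : Type u := Γ(T, U)
  let : Algebra k A := (Spec.preimage (hU.fromSpec ≫ t)).hom.toAlgebra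
  have hι : hU.fromSpec ≫ t = specTo k A := by
    conv_lhs => rw [← Spec.map_preimage (hU.fromSpec ≫ t)]
    rfl
  let gA : SchemeHomOver (specTo k A) t := ⟨hU.fromSpec, hι⟩
  obtain ⟨χ, hχ⟩ := (𝓒.triAt N hN gA).exists_euler_function
  have : IsDomain A := inferInstanceAs (IsDomain Γ(T, U))
  obtain ⟨p₀⟩ := (inferInstance : Nonempty (PrimeSpectrum A))
  refine ⟨χ p₀, fun K _ _ g hg ↦ ?_⟩
  have hrange : Set.range g.1 ⊆ Set.range hU.fromSpec := by
    rw [hU.range_fromSpec]
    rintro _ ⟨p, rfl⟩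
    exact hg p
  let q : Spec (CommRingCat.of K) ⟶ Spec (CommRingCat.of A) :=
    IsOpenImmersion.lift hU.fromSpec g.1 hrange
  have hq : q ≫ hU.fromSpec = g.1 := IsOpenImmersion.lift_fac _ _ hrange
  have hcomm : (CommRingCat.ofHom (algebraMap k A)) ≫ Spec.preimage q =
      CommRingCat.ofHom (algebraMap k K) := by
    apply Spec.map_injective
    rw [Spec.map_comp, Spec.map_preimage]
    exact ((congrArg (q ≫ ·) hι.symm).trans (by rw [← Category.assoc, hq, g.2]))
  let f : A →ₐ[k] K :=
    { (Spec.preimage q).hom with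
      commutes' := fun r ↦ congrArg (fun z ↦ z.hom r) hcomm }
  obtain ⟨P⟩ := 𝓒.nonempty_triAt_pullback N hN f gA g (by
    change g.1 = Spec.map (CommRingCat.ofHom (Spec.preimage q).hom) ≫ hU.fromSpec
    rw [CommRingCat.ofHom_hom, Spec.map_preimage, hq])
  rw [hχ K f _ P]
  exact χ.apply_eq_of_preconnectedSpace _ _

/-- On an integral base two rational points over a field have the same Euler characteristic. -/
lemma index_eq_of_isIntegral [IsIntegral T] {K₀ K₁ : Type u} [Field K₀] [Algebra k K₀] [Field K₁]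
    [Algebra k K₁] (g₀ : SchemeHomOver (specTo k K₀) t) (g₁ : SchemeHomOver (specTo k K₁) t) :
    (𝓒.triAt N hN g₀).diff.index = (𝓒.triAt N hN g₁).diff.index := by
  have hchart : ∀ (K : Type u) [Field K] [Algebra k K] (g : SchemeHomOver (specTo k K) t),
      ∃ U : T.Opens, IsAffineOpen U ∧ ∀ p, g.1 p ∈ U := by
    intro K _ _ g
    obtain ⟨U, hU, hx, -⟩ :=
      exists_isAffineOpen_mem_and_subset (U := (⊤ : T.Opens)) (x := g.1 default) trivial
    exact ⟨U, hU, fun p ↦ Subsingleton.elim default p ▸ hx⟩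
  obtain ⟨U₀, hU₀, hg₀⟩ := hchart K₀ g₀
  obtain ⟨U₁, hU₁, hg₁⟩ := hchart K₁ g₁
  have : Nonempty U₀ := ⟨⟨_, hg₀ default⟩⟩
  have : Nonempty U₁ := ⟨⟨_, hg₁ default⟩⟩
  obtain ⟨n₀, hn₀⟩ := 𝓒.exists_index_const N hN hU₀
  obtain ⟨n₁, hn₁⟩ := 𝓒.exists_index_const N hN hU₁
  obtain ⟨z, hz₀, hz₁⟩ := nonempty_preirreducible_inter U₀.isOpen U₁.isOpen
    ⟨_, hg₀ default⟩ ⟨_, hg₁ default⟩
  let F : Type u := T.residueField z
  let : Algebra k F := (Spec.preimage (T.fromSpecResidueField z ≫ t)).hom.toAlgebra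
  let gz : SchemeHomOver (specTo k F) t := ⟨T.fromSpecResidueField z, by
    conv_lhs => rw [← Spec.map_preimage (T.fromSpecResidueField z ≫ t)]
    rfl⟩
  have hzmem : ∀ p, gz.1 p = z := fun p ↦ T.fromSpecResidueField_apply z p
  rw [hn₀ K₀ g₀ hg₀, hn₁ K₁ g₁ hg₁, ← hn₀ F gz fun p ↦ (hzmem p).symm ▸ hz₀,
    hn₁ F gz fun p ↦ (hzmem p).symm ▸ hz₁]

end TriAt

/-- Base change of a tensor product to a larger field is still a domain. -/
lemma geometricallyIntegral_spec_tensor (K S : Type u) [Field K] [Algebra k K] [CommRing S]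
    [Algebra k S] (hdom : ∀ (L : Type u) [Field L] [Algebra k L], IsDomain (L ⊗[k] S)) :
    GeometricallyIntegral (Spec.map (CommRingCat.ofHom (algebraMap K (K ⊗[k] S)))) := by
  rw [GeometricallyIntegral.eq_geometrically, geometrically_iff_of_commRing]
  intro L _ _ Z fst snd hZ
  let : Algebra k L := ((algebraMap K L).comp (algebraMap k K)).toAlgebra
  have : IsScalarTower k K L := IsScalarTower.of_algebraMap_eq fun _ ↦ rfl
  have := hdom L
  let e : (K ⊗[k] S) ⊗[K] L ≃+* L ⊗[k] S :=
    (Algebra.TensorProduct.comm K (K ⊗[k] S) L).toRingEquiv.trans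
      (Algebra.TensorProduct.cancelBaseChange k K K L S).toRingEquiv
  have : IsDomain ((K ⊗[k] S) ⊗[K] L) := e.toMulEquiv.isDomain
  obtain ⟨p⟩ := (inferInstance : Nonempty (Spec (CommRingCat.of ((K ⊗[k] S) ⊗[K] L))))
  have : Nonempty Z := ⟨(hZ.isoPullback ≪≫ pullbackSpecIso K (K ⊗[k] S) L).inv p⟩
  exact isIntegral_of_isOpenImmersion (hZ.isoPullback ≪≫ pullbackSpecIso K (K ⊗[k] S) L).hom

section Field

variable {K : Type u} [Field K] [Algebra k K]

/-- Algebraically equivalent to zero implies Euler characteristic of the structure sheaf. -/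
lemma index_of_isAlgEquivZero {L : (Limits.pullback c (specTo k K)).Modules}
    (hL : Scheme.Modules.IsInvertible L) (h : IsAlgEquivZero (pullback.snd c (specTo k K)) L) :
    (𝓒.toTri L hL).diff.index = (𝓒.X.trivialTri K).diff.index := by
  obtain ⟨T', h', -, hgi, M, hM, t₀, t₁, ⟨e₀⟩, ⟨e₁⟩⟩ := h
  have : IsIntegral T' := GeometricallyIntegral.isIntegral_of_subsingleton h'
  let τ : T' ⟶ Spec (CommRingCat.of k) := h' ≫ specTo k K
  let a := pullback.snd c (specTo k K)
  let j : Limits.pullback c τ ⟶ Limits.pullback a h' :=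
    pullback.lift (baseChangeSnd c (⟨h', rfl⟩ : SchemeHomOver τ (specTo k K))) (pullback.snd c τ)
      (by simp only [a, baseChangeSnd, pullback.lift_snd])
  let σ : Limits.pullback c (specTo k K) ⟶ Limits.pullback a (𝟙 (Spec (CommRingCat.of K))) :=
    pullback.lift (𝟙 _) a (by rw [Category.id_comp, Category.comp_id])
  let q : SchemeHomOver (𝟙 (Spec (CommRingCat.of K))) h' → SchemeHomOver (specTo k K) τ :=
    fun tt ↦ ⟨tt.1, by rw [← Category.assoc, tt.2, Category.id_comp]⟩
  have hsq : ∀ tt, baseChangeSnd c (q tt) ≫ j = σ ≫ baseChangeSnd a tt := by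
    intro tt
    have hc : pullback.snd a (𝟙 (Spec (CommRingCat.of K))) = pullback.fst a (𝟙 _) ≫ a := by
      rw [pullback.condition, Category.comp_id]
    apply pullback.hom_ext
    · simp only [j, σ, Category.assoc, pullback.lift_fst,
        baseChangeSnd_fst']
      rw [baseChangeSnd_comp, ← baseChangeSnd_id c (specTo k K)]
      congr 1
      exact Subtype.ext tt.2
    · simp only [j, σ, Category.assoc, pullback.lift_snd, pullback.lift_snd_assoc,
        baseChangeSnd_snd']
      rfl
  let N := (Scheme.Modules.pullback j).obj M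
  have hiso : ∀ tt, ((Scheme.Modules.pullback (baseChangeSnd c (q tt))).obj N) ≅
      (Scheme.Modules.pullback σ).obj ((Scheme.Modules.pullback (baseChangeSnd a tt)).obj M) :=
    fun tt ↦ (Scheme.Modules.pullbackComp _ _).app M ≪≫
      (Scheme.Modules.pullbackCongr (hsq tt)).app M ≪≫
      ((Scheme.Modules.pullbackComp _ _).app M).symm
  have h0 : (𝓒.triAt N (hM.pullback j) (q t₀)).diff.index = (𝓒.X.trivialTri K).diff.index :=
    (TwoChart.Tri.index_congr ((𝓒.equivOfIso ((hM.pullback j).pullback _) (Scheme.Modules.isInvertible_unit _)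
      (hiso t₀ ≪≫ (Scheme.Modules.pullback σ).mapIso e₀ ≪≫ Scheme.Modules.pullbackUnitIso σ)).trans
        (𝓒.toTriUnitEquiv K))).symm
  have h1 : (𝓒.toTri L hL).diff.index = (𝓒.triAt N (hM.pullback j) (q t₁)).diff.index :=
    TwoChart.Tri.index_congr (𝓒.equivOfIso ((hM.pullback j).pullback _) hL
      (hiso t₁ ≪≫ (Scheme.Modules.pullback σ).mapIso e₁ ≪≫
        (Scheme.Modules.pullbackComp _ _).app L ≪≫
        (Scheme.Modules.pullbackCongr (pullback.lift_fst _ _ _)).app L ≪≫
        (Scheme.Modules.pullbackId _).app L))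
  rw [h1, 𝓒.index_eq_of_isIntegral N (hM.pullback j) (q t₁) (q t₀), h0]

variable [IsAlgClosed k] [IsAlgClosed K]

/-- A sheaf of degree zero over an algebraically closed field is algebraically equivalent to zero. -/
lemma isAlgEquivZero_of_deg0 {L : (Limits.pullback c (specTo k K)).Modules}
    (hL : Scheme.Modules.IsInvertible L) (hd : (𝓒.toTri L hL).Deg0) :
    IsAlgEquivZero (pullback.snd c (specTo k K)) L := by
  obtain ⟨σ, -, P, N, hdom, -, -, hbase, hcov⟩ := Points.exists_covering_families 𝓒.X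
  obtain ⟨s, φ, -, ⟨Q⟩⟩ := hcov K ⊤ (fun _ ↦ trivial) _ hd
  obtain ⟨φ₀, ⟨Q₀⟩⟩ := hbase s
  let A : Type u := K ⊗[k] (P s).R
  let inc : (P s).R →ₐ[k] A := Algebra.TensorProduct.includeRight
  let NA := (N s).baseChange inc
  let h : Spec (CommRingCat.of A) ⟶ Spec (CommRingCat.of K) :=
    Spec.map (CommRingCat.ofHom (algebraMap K A))
  have hτ : h ≫ specTo k K = specTo k A := by
    simp only [h, specTo, ← Spec.map_comp, ← CommRingCat.ofHom_comp,
      ← IsScalarTower.algebraMap_eq]
  let a := pullback.snd c (specTo k K)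
  let m : Limits.pullback a h ⟶ Limits.pullback c (specTo k A) :=
    pullback.lift (pullback.fst a h ≫ pullback.fst c (specTo k K)) (pullback.snd a h) (by
      rw [Category.assoc, pullback.condition, ← Category.assoc, ← hτ, pullback.condition,
        Category.assoc])
  let sec : ((P s).R →ₐ[k] K) → (A →ₐ[K] K) := fun ψ ↦
    Algebra.TensorProduct.lift (Algebra.ofId K K) ψ (fun _ _ ↦ Commute.all _ _)
  let pt : ((P s).R →ₐ[k] K) → SchemeHomOver (𝟙 (Spec (CommRingCat.of K))) h := fun ψ ↦
    ⟨Spec.map (CommRingCat.ofHom (sec ψ).toRingHom), by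
      simp only [h, ← Spec.map_comp, ← CommRingCat.ofHom_comp, AlgHom.toRingHom_eq_coe,
        AlgHom.comp_algebraMap]
      exact Spec.map_id _⟩
  have hfib : ∀ (ψ : (P s).R →ₐ[k] K) (L' : (Limits.pullback c (specTo k K)).Modules)
      (hL' : Scheme.Modules.IsInvertible L'),
      TwoChart.Tri.Pullback ψ (N s) (𝓒.toTri L' hL') →
      Nonempty ((Scheme.Modules.pullback (baseChangeSnd a (pt ψ))).obj
          ((Scheme.Modules.pullback m).obj (𝓒.ofTri NA)) ≅
        (Scheme.Modules.pullback (pullback.fst a (𝟙 (Spec (CommRingCat.of K))))).obj L') := by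
    intro ψ L' hL' Q'
    let f : A →ₐ[k] K := (sec ψ).restrictScalars k
    have hsq : baseChangeSnd a (pt ψ) ≫ m =
        pullback.fst a (𝟙 _) ≫ baseChangeSnd c (AffineChart.baseMap f) := by
      have hc : pullback.fst a (𝟙 (Spec (CommRingCat.of K))) ≫ pullback.snd c (specTo k K) =
          pullback.snd a (𝟙 (Spec (CommRingCat.of K))) := by
        rw [pullback.condition, Category.comp_id]
      apply pullback.hom_ext
      · simp only [m, Category.assoc, pullback.lift_fst, baseChangeSnd_fst', baseChangeSnd_fst'_assoc]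
      · simp only [m, Category.assoc, pullback.lift_snd, baseChangeSnd_snd']
        rw [reassoc_of% hc]
        rfl
    have hinc : f.comp inc = ψ := by
      ext r
      change sec ψ (1 ⊗ₜ r) = ψ r
      exact (Algebra.TensorProduct.lift_tmul _ _ _ 1 r).trans (by rw [map_one, one_mul])
    obtain ⟨i⟩ := 𝓒.nonempty_iso_of_equiv ((𝓒.isInvertible_ofTri NA).pullback _) hL'
      ((((N s).pullbackBaseChange inc).comp ((𝓒.toTriPullback f _ (𝓒.isInvertible_ofTri NA)).congrLeft
          (𝓒.toTri_ofTri NA).symm)).cast hinc |>.equiv Q')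
    exact ⟨(Scheme.Modules.pullbackComp _ _).app _ ≪≫ (Scheme.Modules.pullbackCongr hsq).app _ ≪≫
      ((Scheme.Modules.pullbackComp _ _).app _).symm ≪≫ (Scheme.Modules.pullback _).mapIso i⟩
  obtain ⟨e₁⟩ := hfib φ L hL Q
  obtain ⟨e₀⟩ := hfib ((Algebra.ofId k K).comp φ₀) _ (Scheme.Modules.isInvertible_unit _)
    ((Q₀.comp (𝓒.X.trivialPullback (Algebra.ofId k K))).congrRight (𝓒.toTriUnitEquiv K).symm)
  have : Algebra.FiniteType K A := inferInstanceAs (Algebra.FiniteType K (K ⊗[k] (P s).R))
  refine ⟨Spec (CommRingCat.of A), h, ?_, geometricallyIntegral_spec_tensor K (P s).R (hdom s),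
    (Scheme.Modules.pullback m).obj (𝓒.ofTri NA), (𝓒.isInvertible_ofTri NA).pullback m,
    pt ((Algebra.ofId k K).comp φ₀), pt φ,
    ⟨e₀ ≪≫ Scheme.Modules.pullbackUnitIso _⟩, ⟨e₁⟩⟩
  rw [HasRingHomProperty.Spec_iff (P := @LocallyOfFiniteType)]
  exact RingHom.finiteType_algebraMap.mpr ‹_›

end Field

variable [IsAlgClosed k]

/-- The cut by fibrewise algebraic equivalence is the degree zero condition. -/
theorem fibrewiseAlgEquivZero_iff_deg0 {T : Scheme.{u}} {t : T ⟶ Spec (CommRingCat.of k)}
    (M : RigidifiedLineBundle c ε t) :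
    FibrewiseAlgEquivZero M ↔ ∀ (R : Type u) [CommRing R] [Algebra k R]
      (g : SchemeHomOver (specTo k R) t),
      (𝓒.toTri (M.pullbackAlong g).L (M.pullbackAlong g).isInvertible).Deg0 := by
  constructor
  · intro hM R _ _ g
    refine TwoChart.Tri.deg0_of_forall_prime fun p ↦ ?_
    let K : Type u := AlgebraicClosure p.asIdeal.ResidueField
    let f : R →ₐ[k] K := IsScalarTower.toAlgHom k R K
    let g' : SchemeHomOver (specTo k K) t := postComp g (AffineChart.baseMap f)
    obtain ⟨P⟩ := 𝓒.nonempty_triAt_pullback M.L M.isInvertible f g g' rfl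
    refine ⟨K, inferInstance, inferInstance, f, _, P, ?_, 𝓒.index_of_isAlgEquivZero _ ?_⟩
    · change RingHom.ker (algebraMap R K) = _
      rw [IsScalarTower.algebraMap_eq R p.asIdeal.ResidueField K,
        RingHom.ker_comp_of_injective _ (RingHom.injective _), Ideal.ker_algebraMap_residueField]
    · let e : Limits.pullback c (specTo k K) ⟶ Limits.pullback (pullback.snd c t) g'.1 :=
        pullback.lift (baseChangeSnd c g') (pullback.snd c (specTo k K))
          (by simp only [baseChangeSnd, pullback.lift_snd])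
      exact IsAlgEquivZero.of_iso
        ((Scheme.Modules.pullbackComp _ _).app M.L ≪≫
          (Scheme.Modules.pullbackCongr (pullback.lift_fst _ _ _)).app M.L)
        ((hM K g'.1).pullback e (pullback.lift_snd _ _ _))
  · intro hD K _ _ s
    let : Algebra k K := (Spec.preimage (s ≫ t)).hom.toAlgebra
    let g : SchemeHomOver (specTo k K) t := ⟨s, by
      conv_lhs => rw [← Spec.map_preimage (s ≫ t)]
      rfl⟩
    let e : Limits.pullback (pullback.snd c t) s ⟶ Limits.pullback c (specTo k K) :=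
      pullback.lift (pullback.fst _ s ≫ pullback.fst c t) (pullback.snd _ s) (by
        rw [Category.assoc, pullback.condition, ← Category.assoc, ← g.2, pullback.condition,
          Category.assoc])
    have he : e ≫ baseChangeSnd c g = pullback.fst (pullback.snd c t) s := by
      apply pullback.hom_ext
      · simp only [e, Category.assoc, baseChangeSnd_fst']
        exact pullback.lift_fst _ _ _
      · simp only [e, Category.assoc, baseChangeSnd_snd']
        rw [← Category.assoc, pullback.lift_snd]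
        exact pullback.condition.symm
    exact IsAlgEquivZero.of_iso
      ((Scheme.Modules.pullbackComp _ _).app M.L ≪≫ (Scheme.Modules.pullbackCongr he).app M.L)
      ((𝓒.isAlgEquivZero_of_deg0 (M.pullbackAlong g).isInvertible (hD K g)).pullback e
        (pullback.lift_snd _ _ _))

end CurveModel

end

end Fermat.Agent.Picard
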