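/-
Rigidified line bundles: smallness of classes, affine points and the degree zero condition.
-/
import Fermat.Agent.Picard.Scheme.Affine

set_option autoImplicit false

universe u

open CategoryTheory CategoryTheory.Limits AlgebraicGeometry TopologicalSpace Opposite NeronModelInfra
  AlgebraicGeometry.RelPicard

namespace Fermat.Agent.Picard

noncomputable section

variable {k : Type u} [Field k] {C : Scheme.{u}} {c : C ⟶ Spec (CommRingCat.of k)}
  {ε : SchemeHomOver (𝟙 (Spec (CommRingCat.of k))) c}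

/-- Pulling back along the identity. -/
lemma nonempty_pullbackAlong_id {T : Scheme.{u}} {t : T ⟶ Spec (CommRingCat.of k)}
    (M : RigidifiedLineBundle c ε t) (ψ : SchemeHomOver t t) (hψ : ψ.1 = 𝟙 T) :
    Nonempty ((M.pullbackAlong ψ).L ≅ M.L) := by
  obtain rfl : ψ = ⟨𝟙 T, Category.id_comp t⟩ := Subtype.ext hψ
  exact ⟨(Scheme.Modules.pullbackCongr (baseChangeSnd_id c t)).app M.L ≪≫
    (Scheme.Modules.pullbackId (pullback c t)).app M.L⟩

/-- Pulling back twice. -/
lemma nonempty_pullbackAlong_comp {T T' T'' : Scheme.{u}} {t : T ⟶ Spec (CommRingCat.of k)}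
    {t' : T' ⟶ Spec (CommRingCat.of k)} {t'' : T'' ⟶ Spec (CommRingCat.of k)}
    (M : RigidifiedLineBundle c ε t) (ψ : SchemeHomOver t' t) (χ : SchemeHomOver t'' t')
    (ω : SchemeHomOver t'' t) (hω : ω.1 = χ.1 ≫ ψ.1) :
    Nonempty (((M.pullbackAlong ψ).pullbackAlong χ).L ≅ (M.pullbackAlong ω).L) := by
  obtain rfl : ω = postComp ψ χ := Subtype.ext hω
  exact ⟨(Scheme.Modules.pullbackComp _ _).app M.L ≪≫
    (Scheme.Modules.pullbackCongr (baseChangeSnd_comp c ψ χ)).app M.L⟩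

/-- Classes of rigidified bundles form a small type. -/
instance small_classes {T : Scheme.{u}} (t : T ⟶ Spec (CommRingCat.of k)) :
    Small.{u} (RigidifiedLineBundle.Classes c ε t) := by
  let D : Type u := Σ U : ↥(pullback c t) → (pullback c t).Opens,
    ∀ i j, Γ(pullback c t, U i ⊓ U j)ˣ
  let Good : D → Prop := fun d ↦ ∃ (hU : ⨆ i, d.1 i = ⊤)
    (hc : ∀ i j l, ores (pullback c t)
        (le_inf (inf_le_left.trans inf_le_left) (inf_le_left.trans inf_le_right))
        (d.2 i j : Γ(pullback c t, d.1 i ⊓ d.1 j)) *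
      ores (pullback c t) (le_inf (inf_le_left.trans inf_le_right) inf_le_right)
        (d.2 j l : Γ(pullback c t, d.1 j ⊓ d.1 l)) =
      ores (pullback c t) (le_inf (inf_le_left.trans inf_le_left) inf_le_right :
          d.1 i ⊓ d.1 j ⊓ d.1 l ≤ d.1 i ⊓ d.1 l)
        (d.2 i l : Γ(pullback c t, d.1 i ⊓ d.1 l)))
    (M : RigidifiedLineBundle c ε t),
    Nonempty ((UnitCocycle.mk _ d.1 hU d.2 hc).toModules ≅ M.L)
  refine small_of_surjective (α := {d : D // Good d})
    (f := fun d ↦ Quotient.mk _ d.2.2.2.choose) fun x ↦ ?_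
  obtain ⟨M, rfl⟩ := Quotient.exists_rep x
  obtain ⟨U, hU, g, hc, ⟨i⟩⟩ := exists_cocycle_iso M.isInvertible
  have hd : Good ⟨U, g⟩ := ⟨hU, hc, M, ⟨i⟩⟩
  obtain ⟨j⟩ := hd.2.2.choose_spec
  exact ⟨⟨⟨U, g⟩, hd⟩, Quotient.sound ⟨j.symm ≪≫ i⟩⟩

/-- The algebra structure of an affine point. -/
abbrev algebraOfPoint {R : CommRingCat.{u}} (f : Spec R ⟶ Spec (CommRingCat.of k)) : Algebra k R :=
  (Spec.preimage f).hom.toAlgebra

lemma specTo_algebraOfPoint {R : CommRingCat.{u}} (f : Spec R ⟶ Spec (CommRingCat.of k)) :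
    @specTo k _ R _ (algebraOfPoint f) = f := Spec.map_preimage f

/-- A morphism of affine points is induced by a homomorphism of algebras. -/
lemma exists_baseMap_eq {R R' : Type u} [CommRing R] [Algebra k R] [CommRing R'] [Algebra k R']
    (g : SchemeHomOver (specTo k R') (specTo k R)) :
    ∃ f : R →ₐ[k] R', AffineChart.baseMap f = g := by
  let φ := Spec.preimage g.1
  have hφ : Spec.map φ = g.1 := Spec.map_preimage g.1
  have h2 := g.2
  rw [← hφ, ← Spec.map_comp] at h2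
  have h3 := congrArg CommRingCat.Hom.hom (Spec.map_injective h2)
  refine ⟨{ φ.hom with commutes' := fun r ↦ RingHom.congr_fun h3 r }, Subtype.ext ?_⟩
  exact hφ

variable (𝓒 : CurveModel c ε)

/-- The triples of a bundle at all affine points have degree zero. -/
def AffDeg0 {T : Scheme.{u}} {t : T ⟶ Spec (CommRingCat.of k)} (M : RigidifiedLineBundle c ε t) :
    Prop :=
  ∀ (R : Type u) [CommRing R] [Algebra k R] (g : SchemeHomOver (specTo k R) t),
    (𝓒.triOf (M.pullbackAlong g)).Deg0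

variable {𝓒} {T T' : Scheme.{u}} {t : T ⟶ Spec (CommRingCat.of k)}
  {t' : T' ⟶ Spec (CommRingCat.of k)}

lemma AffDeg0.congr {M M' : RigidifiedLineBundle c ε t} (h : Nonempty (M.L ≅ M'.L))
    (hM : AffDeg0 𝓒 M) : AffDeg0 𝓒 M' := fun R _ _ g ↦
  (hM R g).congr ((𝓒.nonempty_equiv_triOf_iff _ _).2
    (RigidifiedLineBundle.pullbackAlong_congr g h)).some

lemma AffDeg0.pullback {M : RigidifiedLineBundle c ε t} (hM : AffDeg0 𝓒 M)
    (ψ : SchemeHomOver t' t) : AffDeg0 𝓒 (M.pullbackAlong ψ) := fun R _ _ g ↦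
  (hM R (postComp ψ g)).congr ((𝓒.nonempty_equiv_triOf_iff _ _).2
    (nonempty_pullbackAlong_comp M ψ g (postComp ψ g) rfl)).some.symm

/-- On an affine base it suffices to test the bundle itself. -/
lemma affDeg0_of_deg0 {R : Type u} [CommRing R] [Algebra k R]
    {M : RigidifiedLineBundle c ε (specTo k R)} (hM : (𝓒.triOf M).Deg0) : AffDeg0 𝓒 M := by
  intro R' _ _ g
  obtain ⟨f, rfl⟩ := exists_baseMap_eq g
  exact hM.pullback (𝓒.triOfPullback f M)

lemma AffDeg0.deg0 {R : Type u} [CommRing R] [Algebra k R]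
    {M : RigidifiedLineBundle c ε (specTo k R)} (hM : AffDeg0 𝓒 M) : (𝓒.triOf M).Deg0 :=
  (hM R ⟨𝟙 _, Category.id_comp _⟩).congr ((𝓒.nonempty_equiv_triOf_iff _ _).2
    (nonempty_pullbackAlong_id M _ rfl)).some

/-- Degree zero is local on the base. -/
lemma affDeg0_of_local [IsAlgClosed k] {ι : Type*} {S : ι → Scheme.{u}}
    {s : ∀ i, S i ⟶ Spec (CommRingCat.of k)} (ψ : ∀ i, SchemeHomOver (s i) t)
    [∀ i, IsOpenImmersion (ψ i).1] (hcov : ∀ x : T, ∃ i, x ∈ Set.range (ψ i).1)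
    (M : RigidifiedLineBundle c ε t) (h : ∀ i, AffDeg0 𝓒 (M.pullbackAlong (ψ i))) :
    AffDeg0 𝓒 M := by
  intro R _ _ g
  refine TwoChart.Tri.deg0_of_forall_prime fun p ↦ ?_
  let K : Type u := p.asIdeal.ResidueField
  let φ : R →ₐ[k] K := IsScalarTower.toAlgHom k R K
  refine ⟨K, inferInstance, inferInstance, φ,
    𝓒.triOf ((M.pullbackAlong g).pullbackAlong (AffineChart.baseMap φ)),
    𝓒.triOfPullback φ _, Ideal.ker_algebraMap_residueField p.asIdeal, ?_⟩
  let gK : SchemeHomOver (specTo k K) t := postComp g (AffineChart.baseMap φ)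
  let x₀ : Spec (CommRingCat.of K) := IsLocalRing.closedPoint K
  obtain ⟨i, hi⟩ := hcov (gK.1 x₀)
  have hr : Set.range gK.1 ⊆ Set.range (ψ i).1 := by
    rintro _ ⟨x, rfl⟩
    rwa [Subsingleton.elim x x₀]
  let l : SchemeHomOver (specTo k K) (s i) := ⟨IsOpenImmersion.lift (ψ i).1 gK.1 hr,
    (congrArg (IsOpenImmersion.lift (ψ i).1 gK.1 hr ≫ ·) (ψ i).2.symm).trans
      ((IsOpenImmersion.lift_fac_assoc _ _ hr t).trans gK.2)⟩
  have hdeg : (𝓒.triOf ((M.pullbackAlong g).pullbackAlong (AffineChart.baseMap φ))).Deg0 := by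
    refine (h i K l).congr ((𝓒.nonempty_equiv_triOf_iff _ _).2 ?_).some
    obtain ⟨e1⟩ := nonempty_pullbackAlong_comp M (ψ i) l gK (IsOpenImmersion.lift_fac _ _ _).symm
    obtain ⟨e2⟩ := nonempty_pullbackAlong_comp M g (AffineChart.baseMap φ) gK rfl
    exact ⟨e1 ≪≫ e2.symm⟩
  exact hdeg K inferInstance inferInstance (AlgHom.id k K) _
    (TwoChart.Tri.Equiv.refl _).toPullback

end

end Fermat.Agent.Picard
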