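/-
The part of a base scheme lying in a chart.
-/
import Fermat.Agent.Picard.Scheme.Classes

set_option autoImplicit false

universe u

open CategoryTheory CategoryTheory.Limits AlgebraicGeometry TopologicalSpace Opposite NeronModelInfra
  AlgebraicGeometry.RelPicard

namespace Fermat.Agent.Picard

noncomputable section

variable {k : Type u} [Field k] [IsAlgClosed k]

section Algebra

variable {X : TwoChart k} {R : Type u} [CommRing R] [Algebra k R]

lemma good_iff_univ (i : X.ChartIndex) (L : X.Tri R) : i.Good L ↔ i.locus L = Set.univ := by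
  rw [i.good_iff_range_subset (TwoChart.Tri.Equiv.refl L).toPullback]
  have : Set.range (PrimeSpectrum.comap (AlgHom.id k R).toRingHom) = Set.univ :=
    Set.eq_univ_of_forall fun p ↦ ⟨p, rfl⟩
  rw [this]
  exact Set.univ_subset_iff

lemma good_congr (i : X.ChartIndex) {L L' : X.Tri R} (e : L.Equiv L') : i.Good L ↔ i.Good L' := by
  rw [i.good_iff_range_subset e.toPullback, good_iff_univ]
  have : Set.range (PrimeSpectrum.comap (AlgHom.id k R).toRingHom) = Set.univ :=
    Set.eq_univ_of_forall fun p ↦ ⟨p, rfl⟩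
  rw [this]
  exact Set.univ_subset_iff.symm

lemma good_pullback (i : X.ChartIndex) {R' : Type u} [CommRing R'] [Algebra k R'] {φ : R →ₐ[k] R'}
    {L : X.Tri R} {L' : X.Tri R'} (P : TwoChart.Tri.Pullback φ L L') (h : i.Good L) : i.Good L' := by
  rw [i.good_iff_range_subset P, (good_iff_univ i L).1 h]
  exact Set.subset_univ _

/-- The chart condition over fields is invariant under extensions. -/
lemma good_field_iff (i : X.ChartIndex) {K K' : Type u} [Field K] [Algebra k K] [Field K']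
    [Algebra k K'] {φ : K →ₐ[k] K'} {L : X.Tri K} {L' : X.Tri K'}
    (P : TwoChart.Tri.Pullback φ L L') : i.Good L ↔ i.Good L' := by
  refine ⟨good_pullback i P, fun h ↦ ?_⟩
  rw [good_iff_univ]
  rw [i.good_iff_range_subset P] at h
  refine Set.eq_univ_of_forall fun p ↦ ?_
  rw [Subsingleton.elim p (PrimeSpectrum.comap φ.toRingHom default)]
  exact h ⟨_, rfl⟩

end Algebra

variable {C : Scheme.{u}} {c : C ⟶ Spec (CommRingCat.of k)}
  {ε : SchemeHomOver (𝟙 (Spec (CommRingCat.of k))) c} (𝓒 : CurveModel c ε)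
  {T : Scheme.{u}} {t : T ⟶ Spec (CommRingCat.of k)}

lemma triOf_equiv_of_iso {R : Type u} [CommRing R] [Algebra k R]
    {M M' : RigidifiedLineBundle c ε (specTo k R)} (h : Nonempty (M.L ≅ M'.L)) :
    Nonempty ((𝓒.triOf M).Equiv (𝓒.triOf M')) := (𝓒.nonempty_equiv_triOf_iff M M').2 h

lemma good_of_iso (i : 𝓒.X.ChartIndex) {R : Type u} [CommRing R] [Algebra k R]
    {M M' : RigidifiedLineBundle c ε (specTo k R)} (h : Nonempty (M.L ≅ M'.L)) :
    i.Good (𝓒.triOf M) ↔ i.Good (𝓒.triOf M') :=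
  good_congr i (triOf_equiv_of_iso 𝓒 h).some

/-- The set of points whose fibre satisfies a chart condition. -/
def locAt (i : 𝓒.X.ChartIndex) (M : RigidifiedLineBundle c ε t) : Set T :=
  {x | ∃ (K : Type u) (_ : Field K) (_ : Algebra k K) (h : SchemeHomOver (specTo k K) t),
    h.1 (IsLocalRing.closedPoint K) = x ∧ i.Good (𝓒.triOf (M.pullbackAlong h))}

lemma good_fieldPoint_iff (i : 𝓒.X.ChartIndex) (M : RigidifiedLineBundle c ε t) {K : Type u}
    [Field K] [Algebra k K] (h : SchemeHomOver (specTo k K) t) {x : T}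
    (hx : h.1 (IsLocalRing.closedPoint K) = x) :
    letI := algebraOfPoint (T.fromSpecResidueField x ≫ t)
    i.Good (𝓒.triOf (M.pullbackAlong h)) ↔ i.Good (𝓒.triOf (M.pullbackAlong
      (⟨T.fromSpecResidueField x, (Spec.map_preimage _).symm⟩ :
        SchemeHomOver (specTo k (T.residueField x)) t))) := by
  let := algebraOfPoint (T.fromSpecResidueField x ≫ t)
  subst hx
  let q : SchemeHomOver (specTo k (T.residueField (h.1 (IsLocalRing.closedPoint K)))) t :=
    ⟨T.fromSpecResidueField _, (Spec.map_preimage _).symm⟩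
  let m : SchemeHomOver (specTo k K) (specTo k (T.residueField (h.1 (IsLocalRing.closedPoint K)))) :=
    ⟨Spec.map (T.descResidueField (Scheme.stalkClosedPointTo h.1)), by
      have e : specTo k (T.residueField (h.1 (IsLocalRing.closedPoint K))) = q.1 ≫ t := q.2.symm
      rw [e, ← Category.assoc, Scheme.descResidueField_stalkClosedPointTo_fromSpecResidueField]
      exact h.2⟩
  obtain ⟨φ, hφ⟩ := exists_baseMap_eq m
  obtain ⟨e⟩ := nonempty_pullbackAlong_comp M q (AffineChart.baseMap φ) h (by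
    rw [hφ]
    exact (Scheme.descResidueField_stalkClosedPointTo_fromSpecResidueField K T h.1).symm)
  rw [← good_of_iso 𝓒 i ⟨e⟩]
  exact (good_field_iff i (𝓒.triOfPullback φ (M.pullbackAlong q))).symm

/-- Membership can be tested at any field valued point. -/
lemma mem_locAt_iff (i : 𝓒.X.ChartIndex) (M : RigidifiedLineBundle c ε t) {K : Type u} [Field K]
    [Algebra k K] (h : SchemeHomOver (specTo k K) t) :
    h.1 (IsLocalRing.closedPoint K) ∈ locAt 𝓒 i M ↔ i.Good (𝓒.triOf (M.pullbackAlong h)) := by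
  refine ⟨?_, fun hg ↦ ⟨K, inferInstance, inferInstance, h, rfl, hg⟩⟩
  rintro ⟨K', _, _, h', hx, hg⟩
  exact (good_fieldPoint_iff 𝓒 i M h rfl).2 ((good_fieldPoint_iff 𝓒 i M h' hx).1 hg)

/-- The chart condition on an affine point. -/
lemma mem_locAt_affine (i : 𝓒.X.ChartIndex) (M : RigidifiedLineBundle c ε t) {R : Type u}
    [CommRing R] [Algebra k R] (g : SchemeHomOver (specTo k R) t) (p : PrimeSpectrum R) :
    g.1 p ∈ locAt 𝓒 i M ↔ p ∈ i.locus (𝓒.triOf (M.pullbackAlong g)) := by
  let K : Type u := p.asIdeal.ResidueField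
  let φ : R →ₐ[k] K := IsScalarTower.toAlgHom k R K
  let h : SchemeHomOver (specTo k K) t := postComp g (AffineChart.baseMap φ)
  have hp : (AffineChart.baseMap φ).1 (IsLocalRing.closedPoint K) = p := by
    apply PrimeSpectrum.ext
    have e : (IsLocalRing.closedPoint K).asIdeal = ⊥ :=
      IsLocalRing.maximalIdeal_eq_bot
    change Ideal.comap (algebraMap R K) (IsLocalRing.closedPoint K).asIdeal = p.asIdeal
    rw [e, ← RingHom.ker_eq_comap_bot]
    exact Ideal.ker_algebraMap_residueField p.asIdeal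
  have hx : h.1 (IsLocalRing.closedPoint K) = g.1 p :=
    (Scheme.Hom.comp_apply _ _ _).trans (congrArg g.1 hp)
  rw [← hx, mem_locAt_iff]
  obtain ⟨e⟩ := nonempty_pullbackAlong_comp M g (AffineChart.baseMap φ) h rfl
  rw [← good_of_iso 𝓒 i ⟨e⟩]
  exact good_congr i ((𝓒.triOfPullback φ (M.pullbackAlong g)).equiv
    (TwoChart.Tri.pullbackBaseChange _ φ))

/-- The chart condition and pullback. -/
lemma mem_locAt_pullback {T' : Scheme.{u}} {t' : T' ⟶ Spec (CommRingCat.of k)}
    (i : 𝓒.X.ChartIndex) (M : RigidifiedLineBundle c ε t) (ψ : SchemeHomOver t' t) (x : T') :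
    x ∈ locAt 𝓒 i (M.pullbackAlong ψ) ↔ ψ.1 x ∈ locAt 𝓒 i M := by
  let := algebraOfPoint (T'.fromSpecResidueField x ≫ t')
  let h : SchemeHomOver (specTo k (T'.residueField x)) t' :=
    ⟨T'.fromSpecResidueField x, (Spec.map_preimage _).symm⟩
  have hx : h.1 (IsLocalRing.closedPoint (T'.residueField x)) = x :=
    Scheme.fromSpecResidueField_apply _ _
  obtain ⟨e⟩ := nonempty_pullbackAlong_comp M ψ h (postComp ψ h) rfl
  have e1 := mem_locAt_iff 𝓒 i (M.pullbackAlong ψ) h
  have e2 := mem_locAt_iff 𝓒 i M (postComp ψ h)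
  rw [show (postComp ψ h).1 (IsLocalRing.closedPoint (T'.residueField x)) = ψ.1 x from
    (Scheme.Hom.comp_apply _ _ _).trans (congrArg ψ.1 hx)] at e2
  rw [hx] at e1
  rw [e1, e2]
  exact good_of_iso 𝓒 i ⟨e⟩

/-- The locus is open. -/
lemma isOpen_locAt (i : 𝓒.X.ChartIndex) (M : RigidifiedLineBundle c ε t) :
    IsOpen (locAt 𝓒 i M) := by
  refine isOpen_iff_forall_mem_open.2 fun x hx ↦ ?_
  obtain ⟨U, hU, hxU, -⟩ := exists_isAffineOpen_mem_and_subset (U := (⊤ : T.Opens))
    (Opens.mem_top x)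
  let := algebraOfPoint (hU.fromSpec ≫ t)
  let g : SchemeHomOver (specTo k Γ(T, U)) t := ⟨hU.fromSpec, (Spec.map_preimage _).symm⟩
  refine ⟨g.1 '' i.locus (𝓒.triOf (M.pullbackAlong g)), ?_, ?_, ?_⟩
  · rintro _ ⟨p, hp, rfl⟩
    exact (mem_locAt_affine 𝓒 i M g p).2 hp
  · exact hU.fromSpec.isOpenEmbedding.isOpenMap _ (i.isOpen_locus _)
  · obtain ⟨p, rfl⟩ : x ∈ Set.range g.1 := by
      change x ∈ Set.range hU.fromSpec
      rw [hU.range_fromSpec]
      exact hxU
    exact ⟨p, (mem_locAt_affine 𝓒 i M g p).1 hx, rfl⟩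

/-- The open subscheme lying in a chart. -/
def locOpen (i : 𝓒.X.ChartIndex) (M : RigidifiedLineBundle c ε t) : T.Opens :=
  ⟨locAt 𝓒 i M, isOpen_locAt 𝓒 i M⟩

/-- Every point lies in a chart. -/
lemma exists_mem_locAt {M : RigidifiedLineBundle c ε t} (hM : AffDeg0 𝓒 M) (x : T) :
    ∃ i, x ∈ locAt 𝓒 i M := by
  let := algebraOfPoint (T.fromSpecResidueField x ≫ t)
  let h : SchemeHomOver (specTo k (T.residueField x)) t :=
    ⟨T.fromSpecResidueField x, (Spec.map_preimage _).symm⟩
  let p : PrimeSpectrum (T.residueField x) := IsLocalRing.closedPoint (T.residueField x)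
  obtain ⟨i, hi⟩ := TwoChart.exists_chart_mem (hM _ h) p
  refine ⟨i, ?_⟩
  have := (mem_locAt_affine 𝓒 i M h p).2 hi
  rwa [show h.1 p = x from Scheme.fromSpecResidueField_apply _ _] at this

end

end Fermat.Agent.Picard
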