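/-
The affine charts: bundles on `C × T` whose fibres all satisfy a chart condition are uniquely
pulled back from the chart.
-/
import Fermat.Agent.Picard.Scheme.Locus

set_option autoImplicit false

universe u

open CategoryTheory CategoryTheory.Limits AlgebraicGeometry TopologicalSpace Opposite NeronModelInfra
  AlgebraicGeometry.RelPicard

namespace Fermat.Agent.Picard

noncomputable section

variable {k : Type u} [Field k] [IsAlgClosed k] {C : Scheme.{u}}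
  {c : C ⟶ Spec (CommRingCat.of k)}
  {ε : SchemeHomOver (𝟙 (Spec (CommRingCat.of k))) c} (𝓒 : CurveModel c ε)

/-- An affine chart with its universal bundle. -/
structure ChartData (i : 𝓒.X.ChartIndex) : Type (u + 1) where
  S : Type u
  [commRing : CommRing S]
  [algebra : Algebra k S]
  finiteType : Algebra.FiniteType k S
  smooth : Algebra.Smooth k S
  M : RigidifiedLineBundle c ε (specTo k S)
  deg0 : AffDeg0 𝓒 M
  good : i.Good (𝓒.triOf M)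
  univ : ∀ (R : Type u) [CommRing R] [Algebra k R] (N : RigidifiedLineBundle c ε (specTo k R)),
    AffDeg0 𝓒 N → i.Good (𝓒.triOf N) →
      ∃! g : SchemeHomOver (specTo k R) (specTo k S), Nonempty ((M.pullbackAlong g).L ≅ N.L)

attribute [instance] ChartData.commRing ChartData.algebra

lemma nonempty_chartData (i : 𝓒.X.ChartIndex) : Nonempty (ChartData 𝓒 i) := by
  obtain ⟨S, _, _, hft, hsm, U, hUn, hUd, hUg, huniv⟩ := i.exists_chart
  obtain ⟨M, ⟨e⟩⟩ := 𝓒.exists_triOf_equiv U hUn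
  refine ⟨⟨S, hft, hsm, M, affDeg0_of_deg0 (hUd.congr e.symm), (good_congr i e).2 hUg,
    fun R _ _ N hN hg ↦ ?_⟩⟩
  obtain ⟨φ, ⟨P⟩, huniq⟩ := huniv R (𝓒.triOf N) (𝓒.normalised_triOf N) hN.deg0 hg
  have hiff : ∀ ψ : S →ₐ[k] R, Nonempty ((M.pullbackAlong (AffineChart.baseMap ψ)).L ≅ N.L) ↔
      Nonempty (TwoChart.Tri.Pullback ψ U (𝓒.triOf N)) := fun ψ ↦ by
    rw [← 𝓒.nonempty_equiv_triOf_iff]
    refine ⟨fun ⟨f⟩ ↦ ⟨(((𝓒.triOfPullback ψ M).congrRight f).congrLeft e.symm)⟩, fun ⟨P'⟩ ↦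
      ⟨(𝓒.triOfPullback ψ M).equiv (P'.congrLeft e)⟩⟩
  refine ⟨AffineChart.baseMap φ, (hiff φ).2 ⟨P⟩, fun g hg' ↦ ?_⟩
  obtain ⟨ψ, rfl⟩ := exists_baseMap_eq g
  rw [huniq ψ ((hiff ψ).1 hg')]

variable {𝓒} {i : 𝓒.X.ChartIndex} (D : ChartData 𝓒 i)
  {T : Scheme.{u}} {t : T ⟶ Spec (CommRingCat.of k)}

lemma ChartData.locAt_eq_univ : locAt 𝓒 i D.M = Set.univ := by
  refine Set.eq_univ_of_forall fun p ↦ ?_
  have h := (mem_locAt_affine 𝓒 i D.M ⟨𝟙 _, Category.id_comp _⟩ p).2 (by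
    rw [(good_iff_univ i _).1 ((good_of_iso 𝓒 i (nonempty_pullbackAlong_id D.M _ rfl)).2 D.good)]
    trivial)
  simpa using h

/-- A test object all of whose points lie in the chart has, on affines, good triples. -/
lemma good_of_forall_mem {N : RigidifiedLineBundle c ε t} (hN : ∀ x, x ∈ locAt 𝓒 i N) {R : Type u}
    [CommRing R] [Algebra k R] (g : SchemeHomOver (specTo k R) t) :
    i.Good (𝓒.triOf (N.pullbackAlong g)) :=
  (good_iff_univ i _).2 (Set.eq_univ_of_forall fun p ↦ (mem_locAt_affine 𝓒 i N g p).1 (hN _))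

/-- Points of the chart are determined by their bundle. -/
lemma ChartData.hom_ext (a a' : SchemeHomOver t (specTo k D.S))
    (h : Nonempty ((D.M.pullbackAlong a).L ≅ (D.M.pullbackAlong a').L)) : a = a' := by
  refine Subtype.ext (T.affineCover.hom_ext _ _ fun j ↦ ?_)
  let := algebraOfPoint (T.affineCover.f j ≫ t)
  let ψ : SchemeHomOver (@specTo k _ _ _ this) t := ⟨T.affineCover.f j, (Spec.map_preimage _).symm⟩
  let g := postComp a ψ
  let g' := postComp a' ψ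
  obtain ⟨e⟩ := nonempty_pullbackAlong_comp D.M a ψ g rfl
  obtain ⟨e'⟩ := nonempty_pullbackAlong_comp D.M a' ψ g' rfl
  have hg : i.Good (𝓒.triOf (D.M.pullbackAlong g)) :=
    good_of_forall_mem (fun x ↦ by rw [D.locAt_eq_univ]; trivial) g
  have := (D.univ _ (D.M.pullbackAlong g) (D.deg0.pullback g) hg).unique (y₁ := g) (y₂ := g')
    ⟨Iso.refl _⟩ ⟨e'.symm ≪≫ (RigidifiedLineBundle.pullbackAlong_congr ψ h).some.symm ≪≫ e⟩
  exact congrArg Subtype.val this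

/-- Bundles whose fibres all satisfy the chart condition come from the chart. -/
lemma ChartData.exists_lift {N : RigidifiedLineBundle c ε t} (hN : AffDeg0 𝓒 N)
    (hmem : ∀ x, x ∈ locAt 𝓒 i N) :
    ∃ a : SchemeHomOver t (specTo k D.S), Nonempty ((D.M.pullbackAlong a).L ≅ N.L) := by
  let 𝓤 := T.affineCover
  have hex : ∀ j, ∃ g : SchemeHomOver (𝓤.f j ≫ t) (specTo k D.S), Nonempty
      ((D.M.pullbackAlong g).L ≅ (N.pullbackAlong (⟨𝓤.f j, rfl⟩ :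
        SchemeHomOver (𝓤.f j ≫ t) t)).L) := fun j ↦ by
    let := algebraOfPoint (T.affineCover.f j ≫ t)
    let ψ : SchemeHomOver (@specTo k _ _ _ this) t :=
      ⟨T.affineCover.f j, (Spec.map_preimage _).symm⟩
    obtain ⟨g, ⟨e⟩, -⟩ := D.univ _ (N.pullbackAlong ψ) (hN.pullback ψ) (good_of_forall_mem hmem ψ)
    let w : SchemeHomOver (𝓤.f j ≫ t) (specTo k D.S) := ⟨g.1, g.2.trans (Spec.map_preimage _)⟩
    let v : SchemeHomOver (𝓤.f j ≫ t) (@specTo k _ _ _ this) :=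
      ⟨𝟙 _, (Category.id_comp _).trans (Spec.map_preimage _)⟩
    obtain ⟨e1⟩ := nonempty_pullbackAlong_comp D.M g v w (Category.id_comp _).symm
    obtain ⟨e2⟩ := nonempty_pullbackAlong_comp N ψ v
      (⟨𝓤.f j, rfl⟩ : SchemeHomOver (𝓤.f j ≫ t) t) (Category.id_comp _).symm
    exact ⟨w, ⟨e1.symm ≪≫ (RigidifiedLineBundle.pullbackAlong_congr v ⟨e⟩).some ≪≫ e2⟩⟩
  choose g hg using hex
  have hcompat : ∀ j l, pullback.fst (𝓤.f j) (𝓤.f l) ≫ (g j).1 =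
      pullback.snd (𝓤.f j) (𝓤.f l) ≫ (g l).1 := fun j l ↦ by
    let pj : SchemeHomOver (pullback.fst (𝓤.f j) (𝓤.f l) ≫ 𝓤.f j ≫ t) (𝓤.f j ≫ t) :=
      ⟨pullback.fst _ _, rfl⟩
    let pl : SchemeHomOver (pullback.fst (𝓤.f j) (𝓤.f l) ≫ 𝓤.f j ≫ t) (𝓤.f l ≫ t) :=
      ⟨pullback.snd _ _, (pullback.condition_assoc t).symm⟩
    let ω : SchemeHomOver (pullback.fst (𝓤.f j) (𝓤.f l) ≫ 𝓤.f j ≫ t) t :=
      ⟨pullback.fst _ _ ≫ 𝓤.f j, Category.assoc _ _ _⟩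
    obtain ⟨a1⟩ := nonempty_pullbackAlong_comp D.M (g j) pj (postComp (g j) pj) rfl
    obtain ⟨a2⟩ := nonempty_pullbackAlong_comp D.M (g l) pl (postComp (g l) pl) rfl
    obtain ⟨b1⟩ := nonempty_pullbackAlong_comp N ⟨𝓤.f j, rfl⟩ pj ω rfl
    obtain ⟨b2⟩ := nonempty_pullbackAlong_comp N ⟨𝓤.f l, rfl⟩ pl ω pullback.condition
    exact congrArg Subtype.val (D.hom_ext (postComp (g j) pj) (postComp (g l) pl)
      ⟨a1.symm ≪≫ (RigidifiedLineBundle.pullbackAlong_congr pj (hg j)).some ≪≫ b1 ≪≫ b2.symm ≪≫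
        (RigidifiedLineBundle.pullbackAlong_congr pl (hg l)).some.symm ≪≫ a2⟩)
  let G : T ⟶ Spec (CommRingCat.of D.S) := 𝓤.glueMorphisms (fun j ↦ (g j).1) hcompat
  have hG : ∀ j, 𝓤.f j ≫ G = (g j).1 := fun j ↦
    𝓤.ι_glueMorphisms (fun j ↦ (g j).1) hcompat j
  obtain ⟨a, ha⟩ : ∃ a : SchemeHomOver t (specTo k D.S), ∀ j, 𝓤.f j ≫ a.1 = (g j).1 := by
    clear_value G
    refine ⟨⟨G, 𝓤.hom_ext _ _ fun j ↦ ?_⟩, hG⟩
    rw [← Category.assoc, hG j]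
    exact (g j).2
  let ψ : ∀ j, SchemeHomOver (𝓤.f j ≫ t) t := fun j ↦ ⟨𝓤.f j, rfl⟩
  have : ∀ j, IsOpenImmersion (ψ j).1 := fun j ↦ inferInstanceAs (IsOpenImmersion (𝓤.f j))
  have hcov : ∀ y : T, ∃ j, y ∈ Set.range (ψ j).1 := fun y ↦ ⟨𝓤.idx y, 𝓤.covers y⟩
  refine ⟨a, nonempty_iso_of_local ψ hcov (epsInjective 𝓒 t) _ _ fun j ↦ ?_⟩
  obtain ⟨e1⟩ := nonempty_pullbackAlong_comp D.M a
    (⟨𝓤.f j, rfl⟩ : SchemeHomOver (𝓤.f j ≫ t) t) (g j) (ha j).symm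
  exact ⟨e1 ≪≫ (hg j).some⟩

end

end Fermat.Agent.Picard
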