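/-
The sheaf of degree zero rigidified classes on the big Zariski site.
-/
import Fermat.Agent.Picard.Scheme.Classes

set_option autoImplicit false

universe u

open CategoryTheory CategoryTheory.Limits AlgebraicGeometry TopologicalSpace Opposite NeronModelInfra
  AlgebraicGeometry.RelPicard

namespace Fermat.Agent.Picard

noncomputable section

variable {k : Type u} [Field k] {C : Scheme.{u}} {c : C ⟶ Spec (CommRingCat.of k)}
  {ε : SchemeHomOver (𝟙 (Spec (CommRingCat.of k))) c} (𝓒 : CurveModel c ε)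

/-- Classes of degree zero bundles. -/
abbrev ClassP {T : Scheme.{u}} (t : T ⟶ Spec (CommRingCat.of k)) : Type (u + 1) :=
  {x : RigidifiedLineBundle.Classes c ε t // ∃ M, AffDeg0 𝓒 M ∧ Quotient.mk _ M = x}

/-- The values of the functor. -/
def PicVal (T : Scheme.{u}) : Type u :=
  Σ t : T ⟶ Spec (CommRingCat.of k), Shrink.{u} (ClassP 𝓒 t)

namespace PicVal

variable {𝓒} {T T' T'' : Scheme.{u}}

/-- The element of a bundle. -/
def mk (t : T ⟶ Spec (CommRingCat.of k)) (M : RigidifiedLineBundle c ε t) (hM : AffDeg0 𝓒 M) :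
    PicVal 𝓒 T :=
  ⟨t, equivShrink _ ⟨Quotient.mk _ M, M, hM, rfl⟩⟩

lemma exists_mk (z : PicVal 𝓒 T) : ∃ M hM, z = mk z.1 M hM := by
  obtain ⟨t, x⟩ := z
  obtain ⟨⟨_, M, hM, rfl⟩, rfl⟩ := (equivShrink _).surjective x
  exact ⟨M, hM, rfl⟩

lemma exists_mk' (z : PicVal 𝓒 T) (t : T ⟶ Spec (CommRingCat.of k)) (h : z.1 = t) :
    ∃ (M : RigidifiedLineBundle c ε t) (hM : AffDeg0 𝓒 M), z = mk t M hM := by
  subst h
  exact exists_mk z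

lemma mk_eq_mk_iff {t : T ⟶ Spec (CommRingCat.of k)} {M M' : RigidifiedLineBundle c ε t}
    {hM : AffDeg0 𝓒 M} {hM' : AffDeg0 𝓒 M'} : mk t M hM = mk t M' hM' ↔ Nonempty (M.L ≅ M'.L) := by
  refine ⟨fun h ↦ ?_, fun h ↦ ?_⟩
  · exact Quotient.exact (congrArg Subtype.val
      ((equivShrink _).injective (eq_of_heq (Sigma.mk.inj_iff.1 h).2)))
  · exact congrArg (Sigma.mk t) (congrArg _ (Subtype.ext (Quotient.sound h)))

lemma fst_eq_of_mk_eq {t t' : T ⟶ Spec (CommRingCat.of k)} {M : RigidifiedLineBundle c ε t}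
    {M' : RigidifiedLineBundle c ε t'} {hM : AffDeg0 𝓒 M} {hM' : AffDeg0 𝓒 M'}
    (h : mk t M hM = mk t' M' hM') : t = t' := congrArg Sigma.fst h

/-- Pullback of values. -/
def map (f : T' ⟶ T) (z : PicVal 𝓒 T) : PicVal 𝓒 T' :=
  ⟨f ≫ z.1, equivShrink _ ⟨RigidifiedLineBundle.classesMap (⟨f, rfl⟩ : SchemeHomOver (f ≫ z.1) z.1)
    ((equivShrink (ClassP 𝓒 z.1)).symm z.2).1, by
      obtain ⟨M, hM, e⟩ := ((equivShrink (ClassP 𝓒 z.1)).symm z.2).2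
      exact ⟨M.pullbackAlong ⟨f, rfl⟩, hM.pullback _, by rw [← e]; rfl⟩⟩⟩

lemma map_mk (f : T' ⟶ T) {t : T ⟶ Spec (CommRingCat.of k)} (M : RigidifiedLineBundle c ε t)
    (hM : AffDeg0 𝓒 M) (ψ : SchemeHomOver (f ≫ t) t) (hψ : ψ.1 = f) :
    map f (mk t M hM) = mk (f ≫ t) (M.pullbackAlong ψ) (hM.pullback ψ) := by
  obtain rfl : ψ = ⟨f, rfl⟩ := Subtype.ext hψ
  refine congrArg (Sigma.mk _) (congrArg _ (Subtype.ext ?_))
  exact congrArg (fun x : ClassP 𝓒 t ↦ RigidifiedLineBundle.classesMap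
    (⟨f, rfl⟩ : SchemeHomOver (f ≫ t) t) x.1) ((equivShrink (ClassP 𝓒 t)).symm_apply_apply _)

lemma map_mk' (f : T' ⟶ T) {t : T ⟶ Spec (CommRingCat.of k)} (M : RigidifiedLineBundle c ε t)
    (hM : AffDeg0 𝓒 M) {t' : T' ⟶ Spec (CommRingCat.of k)} (ψ : SchemeHomOver t' t) (hψ : ψ.1 = f) :
    map f (mk t M hM) = mk t' (M.pullbackAlong ψ) (hM.pullback ψ) := by
  obtain rfl : f ≫ t = t' := hψ ▸ ψ.2
  exact map_mk f M hM ψ hψ

lemma map_id (z : PicVal 𝓒 T) : map (𝟙 T) z = z := by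
  obtain ⟨M, hM, e⟩ := exists_mk z
  rw [e, map_mk' (𝟙 T) M hM ⟨𝟙 T, Category.id_comp _⟩ rfl]
  exact mk_eq_mk_iff.2 (nonempty_pullbackAlong_id M _ rfl)

lemma map_comp (f : T' ⟶ T) (g : T'' ⟶ T') (z : PicVal 𝓒 T) :
    map (g ≫ f) z = map g (map f z) := by
  obtain ⟨M, hM, e⟩ := exists_mk z
  let ψ : SchemeHomOver (f ≫ z.1) z.1 := ⟨f, rfl⟩
  let χ : SchemeHomOver (g ≫ f ≫ z.1) (f ≫ z.1) := ⟨g, rfl⟩
  let ω : SchemeHomOver (g ≫ f ≫ z.1) z.1 := ⟨g ≫ f, Category.assoc _ _ _⟩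
  rw [e, map_mk' (g ≫ f) M hM ω rfl, map_mk' f M hM ψ rfl,
    map_mk' g (M.pullbackAlong ψ) (hM.pullback ψ) χ rfl]
  obtain ⟨i⟩ := nonempty_pullbackAlong_comp M ψ χ ω rfl
  exact mk_eq_mk_iff.2 ⟨i.symm⟩

lemma map_fst (f : T' ⟶ T) (z : PicVal 𝓒 T) : (map f z).1 = f ≫ z.1 := rfl

lemma mk_fst (t : T ⟶ Spec (CommRingCat.of k)) (M : RigidifiedLineBundle c ε t)
    (hM : AffDeg0 𝓒 M) : (mk t M hM).1 = t := rfl

attribute [irreducible] mk map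

/-- Two pullbacks of values agree exactly when the bundles do. -/
lemma map_mk_eq_iff {T₁ T₂ S : Scheme.{u}} {t₁ : T₁ ⟶ Spec (CommRingCat.of k)}
    {t₂ : T₂ ⟶ Spec (CommRingCat.of k)} {s : S ⟶ Spec (CommRingCat.of k)}
    {M₁ : RigidifiedLineBundle c ε t₁} {M₂ : RigidifiedLineBundle c ε t₂} {hM₁ : AffDeg0 𝓒 M₁}
    {hM₂ : AffDeg0 𝓒 M₂} (ψ₁ : SchemeHomOver s t₁) (ψ₂ : SchemeHomOver s t₂)
    {f₁ : S ⟶ T₁} (h₁ : ψ₁.1 = f₁) {f₂ : S ⟶ T₂} (h₂ : ψ₂.1 = f₂) :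
    map f₁ (mk t₁ M₁ hM₁) = map f₂ (mk t₂ M₂ hM₂) ↔
      Nonempty ((M₁.pullbackAlong ψ₁).L ≅ (M₂.pullbackAlong ψ₂).L) := by
  rw [map_mk' f₁ M₁ hM₁ ψ₁ h₁, map_mk' f₂ M₂ hM₂ ψ₂ h₂]
  exact mk_eq_mk_iff

end PicVal

/-- The functor of degree zero rigidified classes. -/
def picFunctor : Scheme.{u}ᵒᵖ ⥤ Type u where
  obj T := PicVal 𝓒 T.unop
  map f := TypeCat.ofHom (PicVal.map f.unop)
  map_id T := TypeCat.homEquiv.injective (funext fun z ↦ PicVal.map_id z)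
  map_comp f g := TypeCat.homEquiv.injective (funext fun z ↦ PicVal.map_comp f.unop g.unop z)

variable [IsAlgClosed k]

/-- Gluing of values over an open cover. -/
theorem existsUnique_glue_picVal {ι : Type*} {T : Scheme.{u}} {S : ι → Scheme.{u}}
    (f : ∀ i, S i ⟶ T) [∀ i, IsOpenImmersion (f i)] (hcov : ∀ y : T, ∃ i, y ∈ Set.range (f i))
    (t : T ⟶ Spec (CommRingCat.of k)) (xi : ∀ i, PicVal 𝓒 (S i)) (ht : ∀ i, f i ≫ t = (xi i).1)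
    (hxi : ∀ i j, PicVal.map (pullback.fst (f i) (f j)) (xi i) =
      PicVal.map (pullback.snd (f i) (f j)) (xi j)) :
    ∃ z : PicVal 𝓒 T, (∀ i, PicVal.map (f i) z = xi i) ∧
      ∀ z', z'.1 = t → (∀ i, PicVal.map (f i) z' = xi i) → z' = z := by
  choose M hM hxM using fun i ↦ PicVal.exists_mk (xi i)
  let ψ : ∀ i, SchemeHomOver (xi i).1 t := fun i ↦ ⟨f i, ht i⟩
  have : ∀ i, IsOpenImmersion (ψ i).1 := fun i ↦ inferInstanceAs (IsOpenImmersion (f i))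
  have hloc : ∀ i j, Nonempty (
      ((M i).pullbackAlong (⟨pullback.fst (ψ i).1 (ψ j).1, rfl⟩ :
        SchemeHomOver (pullback.fst (ψ i).1 (ψ j).1 ≫ (xi i).1) (xi i).1)).L ≅
      ((M j).pullbackAlong (⟨pullback.snd (ψ i).1 (ψ j).1, overlap_over ψ i j⟩ :
        SchemeHomOver (pullback.fst (ψ i).1 (ψ j).1 ≫ (xi i).1) (xi j).1)).L) := fun i j ↦ by
    have h := hxi i j
    rw [hxM i, hxM j] at h
    exact (PicVal.map_mk_eq_iff (⟨pullback.fst (ψ i).1 (ψ j).1, rfl⟩ :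
        SchemeHomOver (pullback.fst (ψ i).1 (ψ j).1 ≫ (xi i).1) (xi i).1)
      (⟨pullback.snd (ψ i).1 (ψ j).1, overlap_over ψ i j⟩ :
        SchemeHomOver (pullback.fst (ψ i).1 (ψ j).1 ≫ (xi i).1) (xi j).1)
      (f₁ := pullback.fst (f i) (f j)) rfl (f₂ := pullback.snd (f i) (f j)) rfl).1 h
  obtain ⟨L, hL⟩ := exists_rigidified_of_local ψ hcov (epsInjective 𝓒 t) M hloc
  have hLdeg : AffDeg0 𝓒 L := affDeg0_of_local ψ hcov L fun i ↦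
    (hM i).congr ⟨(hL i).some.symm⟩
  refine ⟨PicVal.mk t L hLdeg, fun i ↦ ?_, fun z hzt hz ↦ ?_⟩
  · rw [hxM i, PicVal.map_mk' (f i) L hLdeg (ψ i) rfl]
    exact PicVal.mk_eq_mk_iff.2 (hL i)
  · obtain ⟨L', hL', e⟩ := PicVal.exists_mk' z t hzt
    refine e.trans (PicVal.mk_eq_mk_iff.2 (nonempty_iso_of_local ψ hcov (epsInjective 𝓒 t) L' L
      fun i ↦ ?_))
    have h := hz i
    rw [e, hxM i, PicVal.map_mk' (f i) L' hL' (ψ i) rfl] at h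
    obtain ⟨a⟩ := PicVal.mk_eq_mk_iff.1 h
    exact ⟨a ≪≫ (hL i).some.symm⟩

include 𝓒 in
/-- The functor is a Zariski sheaf. -/
theorem isSheaf_picFunctor : Presheaf.IsSheaf Scheme.zariskiTopology (picFunctor 𝓒) := by
  rw [isSheaf_iff_isSheaf_of_type]
  rw [Precoverage.isSheaf_toGrothendieck_iff_of_isStableUnderBaseChange]
  rintro T S hS x hx
  obtain ⟨(𝓤 : T.OpenCover), rfl⟩ := Scheme.exists_cover_of_mem_pretopology hS
  let xi : ∀ i, PicVal 𝓒 (𝓤.X i) := fun i ↦ x (𝓤.f i) (.mk i)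
  have hxi : ∀ i j, PicVal.map (pullback.fst (𝓤.f i) (𝓤.f j)) (xi i) =
      PicVal.map (pullback.snd (𝓤.f i) (𝓤.f j)) (xi j) := fun i j ↦
    hx (pullback.fst (𝓤.f i) (𝓤.f j)) (pullback.snd (𝓤.f i) (𝓤.f j)) (.mk i) (.mk j)
      pullback.condition
  obtain ⟨t, ht⟩ : ∃ t : T ⟶ Spec (CommRingCat.of k), ∀ i, 𝓤.f i ≫ t = (xi i).1 :=
    ⟨𝓤.glueMorphisms (fun i ↦ (xi i).1) fun i j ↦ (PicVal.map_fst _ _).symm.trans
      ((congrArg Sigma.fst (hxi i j)).trans (PicVal.map_fst _ _)), fun i ↦ 𝓤.ι_glueMorphisms _ _ i⟩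
  have : ∀ i, IsOpenImmersion (𝓤.f i) := fun i ↦ inferInstance
  obtain ⟨z, hz, huniq⟩ := existsUnique_glue_picVal 𝓒 𝓤.f (fun y ↦ ⟨𝓤.idx y, 𝓤.covers y⟩) t xi ht hxi
  refine ⟨z, ?_, fun z' hz' ↦ ?_⟩
  · rintro Z g ⟨i⟩
    exact hz i
  · have hz'' : ∀ i, PicVal.map (𝓤.f i) z' = xi i := fun i ↦ hz' (𝓤.f i) (.mk i)
    exact huniq z' (𝓤.hom_ext _ _ fun i ↦
      (PicVal.map_fst _ _).symm.trans ((congrArg Sigma.fst (hz'' i)).trans (ht i).symm)) hz''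

/-- The sheaf of degree zero rigidified classes. -/
def picSheaf : Sheaf Scheme.zariskiTopology (Type u) :=
  ⟨picFunctor 𝓒, isSheaf_picFunctor 𝓒⟩

end

end Fermat.Agent.Picard
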