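/-
The universal property of the Jacobian scheme on affine schemes, in terms of triples.
-/
import Fermat.Agent.Picard.Algebra.Statements
import Fermat.Agent.Picard.Bridge.Chart
import Fermat.Prelude.Def_AlgebraicGeometry_RepresentsRelSubPic

set_option autoImplicit false

universe u

open CategoryTheory CategoryTheory.Limits AlgebraicGeometry NeronModelInfra AlgebraicGeometry.RelPicard

namespace Fermat.Agent.Picard

variable {k : Type u} [Field k] [IsAlgClosed k]

/-- A scheme over `k` classifying normalised triples of degree zero over affine bases, with its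
affine charts. -/
structure JacModel (X : TwoChart k) where
  /-- the scheme -/
  J : Scheme.{u}
  /-- its structure morphism -/
  toBase : J ⟶ Spec (CommRingCat.of k)
  /-- the triple of a point -/
  tri : ∀ {R : Type u} [CommRing R] [Algebra k R], SchemeHomOver (specTo k R) toBase → X.Tri R
  tri_normalised : ∀ {R : Type u} [CommRing R] [Algebra k R]
    (g : SchemeHomOver (specTo k R) toBase), (tri g).Normalised
  tri_deg0 : ∀ {R : Type u} [CommRing R] [Algebra k R]
    (g : SchemeHomOver (specTo k R) toBase), (tri g).Deg0
  tri_pullback : ∀ {R R' : Type u} [CommRing R] [Algebra k R] [CommRing R'] [Algebra k R']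
    (f : R →ₐ[k] R') (g : SchemeHomOver (specTo k R) toBase),
    Nonempty (TwoChart.Tri.Pullback f (tri g) (tri (postComp g (AffineChart.baseMap f))))
  existsUnique : ∀ {R : Type u} [CommRing R] [Algebra k R] (L : X.Tri R),
    L.Normalised → L.Deg0 →
      ∃! g : SchemeHomOver (specTo k R) toBase, Nonempty ((tri g).Equiv L)
  /-- the ring of a chart -/
  S : X.ChartIndex → Type u
  [commRing : ∀ i, CommRing (S i)]
  [algebra : ∀ i, Algebra k (S i)]
  finiteType : ∀ i, Algebra.FiniteType k (S i)
  smooth : ∀ i, Algebra.Smooth k (S i)
  /-- the chart -/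
  chart : ∀ i, SchemeHomOver (specTo k (S i)) toBase
  isOpenImmersion : ∀ i, IsOpenImmersion (chart i).1
  /-- the part of an affine test scheme lying in a chart -/
  mem_range_chart : ∀ {R : Type u} [CommRing R] [Algebra k R]
    (g : SchemeHomOver (specTo k R) toBase) (i : X.ChartIndex) (p : PrimeSpectrum R),
    g.1 p ∈ Set.range (chart i).1 ↔ p ∈ i.locus (tri g)

attribute [instance] JacModel.commRing JacModel.algebra

end Fermat.Agent.Picard
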