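/-
The functor of degree zero classes is locally representable by the affine charts.
-/
import Fermat.Agent.Picard.Scheme.Chart
import Fermat.Agent.Picard.Scheme.Functor

set_option autoImplicit false

universe u

open CategoryTheory CategoryTheory.Limits AlgebraicGeometry TopologicalSpace Opposite NeronModelInfra
  AlgebraicGeometry.RelPicard

namespace Fermat.Agent.Picard

noncomputable section

variable {k : Type u} [Field k] [IsAlgClosed k] {C : Scheme.{u}}
  {c : C ⟶ Spec (CommRingCat.of k)}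
  {ε : SchemeHomOver (𝟙 (Spec (CommRingCat.of k))) c} (𝓒 : CurveModel c ε)

lemma locAt_congr {T : Scheme.{u}} {t : T ⟶ Spec (CommRingCat.of k)} (i : 𝓒.X.ChartIndex)
    {M M' : RigidifiedLineBundle c ε t} (h : Nonempty (M.L ≅ M'.L)) :
    locAt 𝓒 i M = locAt 𝓒 i M' := by
  ext x
  let := algebraOfPoint (T.fromSpecResidueField x ≫ t)
  let g : SchemeHomOver (specTo k (T.residueField x)) t :=
    ⟨T.fromSpecResidueField x, (Spec.map_preimage _).symm⟩
  rw [← show g.1 (IsLocalRing.closedPoint (T.residueField x)) = x from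
    Scheme.fromSpecResidueField_apply _ _, mem_locAt_iff, mem_locAt_iff]
  exact good_of_iso 𝓒 i (RigidifiedLineBundle.pullbackAlong_congr g h)

/-- A choice of chart data. -/
def chartData (i : 𝓒.X.ChartIndex) : ChartData 𝓒 i := Classical.choice (nonempty_chartData 𝓒 i)

/-- The spectrum of a chart. -/
abbrev chartScheme (i : 𝓒.X.ChartIndex) : Scheme.{u} := Spec (CommRingCat.of (chartData 𝓒 i).S)

/-- The universal value on a chart. -/
def chartElt (i : 𝓒.X.ChartIndex) : PicVal 𝓒 (chartScheme 𝓒 i) :=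
  PicVal.mk (specTo k (chartData 𝓒 i).S) (chartData 𝓒 i).M (chartData 𝓒 i).deg0

/-- The chart as a map of presheaves. -/
def chartMap (i : 𝓒.X.ChartIndex) : yoneda.obj (chartScheme 𝓒 i) ⟶ (picSheaf 𝓒).1 :=
  yonedaEquiv.symm (chartElt 𝓒 i)

lemma chartMap_app (i : 𝓒.X.ChartIndex) (T : Scheme.{u}) (a : T ⟶ chartScheme 𝓒 i) :
    (chartMap 𝓒 i).app (op T) a = PicVal.map a (chartElt 𝓒 i) := rfl

/-- Maps to a chart are determined by their value. -/
lemma chartElt_injective (i : 𝓒.X.ChartIndex) {T : Scheme.{u}} {a a' : T ⟶ chartScheme 𝓒 i}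
    (h : PicVal.map a (chartElt 𝓒 i) = PicVal.map a' (chartElt 𝓒 i)) : a = a' := by
  have ht : a ≫ specTo k (chartData 𝓒 i).S = a' ≫ specTo k (chartData 𝓒 i).S := by
    have := congrArg Sigma.fst h
    rwa [PicVal.map_fst, PicVal.map_fst, chartElt, PicVal.mk_fst] at this
  let ψ : SchemeHomOver (a ≫ specTo k (chartData 𝓒 i).S) (specTo k (chartData 𝓒 i).S) := ⟨a, rfl⟩
  let ψ' : SchemeHomOver (a ≫ specTo k (chartData 𝓒 i).S) (specTo k (chartData 𝓒 i).S) :=
    ⟨a', ht.symm⟩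
  exact congrArg Subtype.val ((chartData 𝓒 i).hom_ext ψ ψ'
    ((PicVal.map_mk_eq_iff ψ ψ' (f₁ := a) rfl (f₂ := a') rfl).1 h))

/-- The charts are relatively representable by open immersions. -/
theorem isOpenImmersion_chartMap (i : 𝓒.X.ChartIndex) :
    IsOpenImmersion.presheaf (chartMap 𝓒 i) := by
  refine MorphismProperty.relative.of_exists fun T g ↦ ?_
  obtain ⟨z, rfl⟩ : ∃ z, yonedaEquiv.symm z = g := ⟨yonedaEquiv g, Equiv.symm_apply_apply _ _⟩
  obtain ⟨M, hM, hz⟩ := PicVal.exists_mk (show PicVal 𝓒 T from z)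
  let t : T ⟶ Spec (CommRingCat.of k) := (show PicVal 𝓒 T from z).1
  let U := locOpen 𝓒 i M
  let ι : SchemeHomOver (U.ι ≫ t) t := ⟨U.ι, rfl⟩
  obtain ⟨a, ha⟩ := (chartData 𝓒 i).exists_lift (hM.pullback ι) fun x ↦
    (mem_locAt_pullback 𝓒 i M ι x).2 x.2
  have key : PicVal.map a.1 (chartElt 𝓒 i) = PicVal.map U.ι (show PicVal 𝓒 T from z) := by
    rw [hz]
    exact (PicVal.map_mk_eq_iff a ι (f₁ := a.1) rfl (f₂ := U.ι) rfl).2 ha
  refine ⟨U.toScheme, yoneda.map a.1, U.ι, ?_, inferInstance⟩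
  refine IsPullback.of_forall_isPullback_app fun X ↦ ?_
  rw [Types.isPullback_iff]
  refine ⟨?_, fun x y h ↦ ?_, fun b h e ↦ ?_⟩
  · ext (l : X.unop ⟶ U.toScheme)
    change PicVal.map (l ≫ a.1) (chartElt 𝓒 i) = PicVal.map (l ≫ U.ι) (show PicVal 𝓒 T from z)
    rw [PicVal.map_comp, PicVal.map_comp, key]
  · exact (cancel_mono U.ι).1 h.2
  · revert b h e
    intro (b : X.unop ⟶ chartScheme 𝓒 i) (h : X.unop ⟶ T) e
    change PicVal.map b (chartElt 𝓒 i) = PicVal.map h (show PicVal 𝓒 T from z) at e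
    have ht : b ≫ specTo k (chartData 𝓒 i).S = h ≫ t := by
      have := congrArg Sigma.fst e
      rwa [PicVal.map_fst, PicVal.map_fst, chartElt, PicVal.mk_fst] at this
    let ψb : SchemeHomOver (h ≫ t) (specTo k (chartData 𝓒 i).S) := ⟨b, ht⟩
    let ψh : SchemeHomOver (h ≫ t) t := ⟨h, rfl⟩
    have hiso : Nonempty (((chartData 𝓒 i).M.pullbackAlong ψb).L ≅ (M.pullbackAlong ψh).L) := by
      have e' := e
      rw [hz] at e'
      exact (PicVal.map_mk_eq_iff ψb ψh (f₁ := b) rfl (f₂ := h) rfl).1 e'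
    have hrange : Set.range h ⊆ Set.range U.ι := by
      rintro _ ⟨x, rfl⟩
      rw [Scheme.Opens.range_ι]
      refine (mem_locAt_pullback 𝓒 i M ψh x).1 ?_
      rw [← locAt_congr 𝓒 i hiso]
      refine (mem_locAt_pullback 𝓒 i _ ψb x).2 ?_
      rw [(chartData 𝓒 i).locAt_eq_univ]
      trivial
    refine ⟨IsOpenImmersion.lift U.ι h hrange, chartElt_injective 𝓒 i ?_,
      IsOpenImmersion.lift_fac _ _ _⟩
    change PicVal.map (IsOpenImmersion.lift U.ι h hrange ≫ a.1) (chartElt 𝓒 i) = _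
    rw [PicVal.map_comp, key, ← PicVal.map_comp, IsOpenImmersion.lift_fac]
    exact e.symm

/-- The charts cover. -/
theorem isLocallySurjective_chartMap :
    Presheaf.IsLocallySurjective Scheme.zariskiTopology (Sigma.desc (chartMap 𝓒)) where
  imageSieve_mem {T} z := by
    rw [Scheme.mem_grothendieckTopology_iff]
    obtain ⟨M, hM, hz⟩ := PicVal.exists_mk (show PicVal 𝓒 T from z)
    let t : T ⟶ Spec (CommRingCat.of k) := (show PicVal 𝓒 T from z).1
    choose idx hidx using exists_mem_locAt 𝓒 hM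
    let U : T → T.Opens := fun x ↦ locOpen 𝓒 (idx x) M
    refine ⟨Scheme.Cover.mkOfCovers T (fun x ↦ (U x).toScheme) (fun x ↦ (U x).ι)
      (fun x ↦ ⟨x, ⟨x, hidx x⟩, rfl⟩) (fun x ↦ inferInstanceAs (IsOpenImmersion (U x).ι)), ?_⟩
    rintro V f ⟨x⟩
    let ι : SchemeHomOver ((U x).ι ≫ t) t := ⟨(U x).ι, rfl⟩
    obtain ⟨a, ha⟩ := (chartData 𝓒 (idx x)).exists_lift (hM.pullback ι) fun y ↦
      (mem_locAt_pullback 𝓒 (idx x) M ι y).2 y.2
    refine ⟨(Sigma.ι (fun i ↦ yoneda.obj (chartScheme 𝓒 i)) (idx x)).app _ a.1, ?_⟩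
    refine Eq.trans ?_ ((congrArg (fun φ : yoneda.obj (chartScheme 𝓒 (idx x)) ⟶ (picSheaf 𝓒).1 ↦
      φ.app (op (U x).toScheme) a.1) (Sigma.ι_desc (chartMap 𝓒) (idx x))).trans ?_)
    · rfl
    change PicVal.map a.1 (chartElt 𝓒 (idx x)) = PicVal.map (U x).ι (show PicVal 𝓒 T from z)
    rw [hz]
    exact (PicVal.map_mk_eq_iff a ι (f₁ := a.1) rfl (f₂ := (U x).ι) rfl).2 ha

/-- The functor is representable. -/
theorem isRepresentable_picFunctor : (picFunctor 𝓒).IsRepresentable :=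
  haveI := isLocallySurjective_chartMap 𝓒
  Scheme.LocalRepresentability.isRepresentable (F := picSheaf 𝓒) (f := chartMap 𝓒)
    (isOpenImmersion_chartMap 𝓒)

end

end Fermat.Agent.Picard
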