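/-
The Jacobian: the representing scheme, its universal bundle and its affine model.
-/
import Fermat.Agent.Picard.Scheme.Representable
import Fermat.Agent.Picard.Scheme.Model

set_option autoImplicit false

universe u

open CategoryTheory CategoryTheory.Limits AlgebraicGeometry TopologicalSpace Opposite NeronModelInfra
  AlgebraicGeometry.RelPicard GoodReductionJacobian

namespace Fermat.Agent.Picard

noncomputable section

variable {k : Type u} [Field k] {C : Scheme.{u}} {c : C ⟶ Spec (CommRingCat.of k)}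
  {ε : SchemeHomOver (𝟙 (Spec (CommRingCat.of k))) c} (𝓒 : CurveModel c ε)

/-- The triple of the structure sheaf is trivial. -/
def toTriUnitEquiv (R : Type u) [CommRing R] [Algebra k R] :
    TwoChart.Tri.Equiv (𝓒.triOf (RigidifiedLineBundle.unit (c := c) (ε := ε) (specTo k R)))
      (𝓒.X.trivialTri R) where
  eA :=
    { toFun := fun m ↦ (𝓒.φA R).symm (toFun (show Γ(OO (pullback c (specTo k R)), 𝓒.WA R) from m))
      invFun := fun a ↦ (show Γ(OO (pullback c (specTo k R)), 𝓒.WA R) from ofFun (𝓒.φA R a))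
      map_add' := fun m n ↦ map_add (𝓒.φA R).symm _ _
      map_smul' := fun a m ↦ by
        change (𝓒.φA R).symm (𝓒.φA R a * toFun (show Γ(OO (pullback c (specTo k R)), 𝓒.WA R) from m)) =
          a * (𝓒.φA R).symm (toFun (show Γ(OO (pullback c (specTo k R)), 𝓒.WA R) from m))
        rw [map_mul, RingEquiv.symm_apply_apply]
      left_inv := fun m ↦ (congrArg ofFun ((𝓒.φA R).apply_symm_apply _)).trans (ofFun_toFun _)
      right_inv := fun a ↦ (𝓒.φA R).symm_apply_apply a }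
  eB :=
    { toFun := fun m ↦ (𝓒.φB R).symm (toFun (show Γ(OO (pullback c (specTo k R)), 𝓒.WB R) from m))
      invFun := fun a ↦ (show Γ(OO (pullback c (specTo k R)), 𝓒.WB R) from ofFun (𝓒.φB R a))
      map_add' := fun m n ↦ map_add (𝓒.φB R).symm _ _
      map_smul' := fun a m ↦ by
        change (𝓒.φB R).symm (𝓒.φB R a * toFun (show Γ(OO (pullback c (specTo k R)), 𝓒.WB R) from m)) =
          a * (𝓒.φB R).symm (toFun (show Γ(OO (pullback c (specTo k R)), 𝓒.WB R) from m))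
        rw [map_mul, RingEquiv.symm_apply_apply]
      left_inv := fun m ↦ (congrArg ofFun ((𝓒.φB R).apply_symm_apply _)).trans (ofFun_toFun _)
      right_inv := fun a ↦ (𝓒.φB R).symm_apply_apply a }
  eW :=
    { toFun := fun m ↦ (𝓒.φW R).symm (toFun (show Γ(OO (pullback c (specTo k R)), 𝓒.WW R) from m))
      invFun := fun a ↦ (show Γ(OO (pullback c (specTo k R)), 𝓒.WW R) from ofFun (𝓒.φW R a))
      map_add' := fun m n ↦ map_add (𝓒.φW R).symm _ _
      map_smul' := fun a m ↦ by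
        change (𝓒.φW R).symm (𝓒.φW R a * toFun (show Γ(OO (pullback c (specTo k R)), 𝓒.WW R) from m)) =
          a * (𝓒.φW R).symm (toFun (show Γ(OO (pullback c (specTo k R)), 𝓒.WW R) from m))
        rw [map_mul, RingEquiv.symm_apply_apply]
      left_inv := fun m ↦ (congrArg ofFun ((𝓒.φW R).apply_symm_apply _)).trans (ofFun_toFun _)
      right_inv := fun a ↦ (𝓒.φW R).symm_apply_apply a }
  commA m := (𝓒.φW R).symm_apply_eq.2 (by
    change toFun (mres _ (𝓒.WW_le_WA R) (show Γ(OO (pullback c (specTo k R)), 𝓒.WA R) from m)) =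
      𝓒.φW R (𝓒.X.resA R ((𝓒.φA R).symm (toFun (show Γ(OO (pullback c (specTo k R)), 𝓒.WA R) from m))))
    rw [toFun_mres, ← 𝓒.res_φA, RingEquiv.apply_symm_apply])
  commB m := (𝓒.φW R).symm_apply_eq.2 (by
    change toFun (mres _ (𝓒.WW_le_WB R) (show Γ(OO (pullback c (specTo k R)), 𝓒.WB R) from m)) =
      𝓒.φW R (𝓒.X.resB R ((𝓒.φB R).symm (toFun (show Γ(OO (pullback c (specTo k R)), 𝓒.WB R) from m))))
    rw [toFun_mres, ← 𝓒.res_φB, RingEquiv.apply_symm_apply])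

include 𝓒 in
lemma affDeg0_unit {T : Scheme.{u}} (t : T ⟶ Spec (CommRingCat.of k)) :
    AffDeg0 𝓒 (RigidifiedLineBundle.unit (c := c) (ε := ε) t) := fun R _ _ g ↦ by
  obtain ⟨e⟩ := (𝓒.nonempty_equiv_triOf_iff
    ((RigidifiedLineBundle.unit t).pullbackAlong g) (RigidifiedLineBundle.unit (specTo k R))).2
    ⟨Scheme.Modules.pullbackUnitIso _⟩
  exact TwoChart.Tri.deg0_trivial.congr ((toTriUnitEquiv 𝓒 R).symm.trans e.symm)

variable [IsAlgClosed k]

/-- The representing scheme. -/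
def jacScheme : Scheme.{u} :=
  (picFunctor 𝓒).reprX (hF := isRepresentable_picFunctor 𝓒)

/-- The representation. -/
def jacRepr : (picFunctor 𝓒).RepresentableBy (jacScheme 𝓒) :=
  (picFunctor 𝓒).representableBy (hF := isRepresentable_picFunctor 𝓒)

/-- The universal value. -/
def jacElt : PicVal 𝓒 (jacScheme 𝓒) := (jacRepr 𝓒).homEquiv (𝟙 _)

/-- The structure morphism. -/
def jacToBase : jacScheme 𝓒 ⟶ Spec (CommRingCat.of k) := (jacElt 𝓒).1

lemma exists_jacPoincare : ∃ (P : RigidifiedLineBundle c ε (jacToBase 𝓒)) (hP : AffDeg0 𝓒 P),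
    jacElt 𝓒 = PicVal.mk (jacToBase 𝓒) P hP :=
  PicVal.exists_mk' (jacElt 𝓒) _ rfl

/-- The universal bundle. -/
def jacPoincare : RigidifiedLineBundle c ε (jacToBase 𝓒) := (exists_jacPoincare 𝓒).choose

lemma affDeg0_jacPoincare : AffDeg0 𝓒 (jacPoincare 𝓒) :=
  (exists_jacPoincare 𝓒).choose_spec.choose

lemma jacElt_eq : jacElt 𝓒 = PicVal.mk (jacToBase 𝓒) (jacPoincare 𝓒) (affDeg0_jacPoincare 𝓒) :=
  (exists_jacPoincare 𝓒).choose_spec.choose_spec

lemma homEquiv_jacRepr {T : Scheme.{u}} (g : T ⟶ jacScheme 𝓒) :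
    (jacRepr 𝓒).homEquiv g = PicVal.map g (jacElt 𝓒) := by
  rw [show g = g ≫ 𝟙 _ from (Category.comp_id g).symm, (jacRepr 𝓒).homEquiv_comp g (𝟙 _),
    Category.comp_id]
  rfl

/-- The universal property. -/
theorem existsUnique_classify {T : Scheme.{u}} {t : T ⟶ Spec (CommRingCat.of k)}
    (M : RigidifiedLineBundle c ε t) (hM : AffDeg0 𝓒 M) :
    ∃! g : SchemeHomOver t (jacToBase 𝓒),
      Nonempty (((jacPoincare 𝓒).pullbackAlong g).L ≅ M.L) := by
  let z : PicVal 𝓒 T := PicVal.mk t M hM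
  let g := (jacRepr 𝓒).homEquiv.symm z
  have hg : PicVal.map g (jacElt 𝓒) = z := by
    rw [← homEquiv_jacRepr, show (jacRepr 𝓒).homEquiv g = z from Equiv.apply_symm_apply _ _]
  have hgt : g ≫ jacToBase 𝓒 = t := by
    have := congrArg Sigma.fst hg
    rw [PicVal.map_fst] at this
    exact this.trans (PicVal.mk_fst t M hM)
  have hiff : ∀ g' : SchemeHomOver t (jacToBase 𝓒),
      Nonempty (((jacPoincare 𝓒).pullbackAlong g').L ≅ M.L) ↔
        PicVal.map g'.1 (jacElt 𝓒) = z := fun g' ↦ by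
    rw [jacElt_eq, PicVal.map_mk' g'.1 (jacPoincare 𝓒) _ g' rfl]
    exact PicVal.mk_eq_mk_iff.symm
  refine ⟨⟨g, hgt⟩, (hiff _).2 hg, fun g' hg' ↦ Subtype.ext ?_⟩
  have e := (hiff g').1 hg'
  rw [← homEquiv_jacRepr] at e
  exact (jacRepr 𝓒).homEquiv.eq_symm_apply.2 e

/-- The zero section. -/
def jacZero : SchemeHomOver (𝟙 (Spec (CommRingCat.of k))) (jacToBase 𝓒) :=
  (existsUnique_classify 𝓒 (RigidifiedLineBundle.unit (c := c) (ε := ε) (𝟙 _))
    (affDeg0_unit 𝓒 _)).choose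

/-- The Jacobian as a designation. -/
def jacDesignation : RelativePic0Designation k c where
  P := jacScheme 𝓒
  toBase := jacToBase 𝓒
  zeroSection := (jacZero 𝓒).1
  zeroSection_toBase := (jacZero 𝓒).2

/-- The morphism of a chart. -/
def jacChart (i : 𝓒.X.ChartIndex) :
    SchemeHomOver (specTo k (chartData 𝓒 i).S) (jacToBase 𝓒) :=
  (existsUnique_classify 𝓒 (chartData 𝓒 i).M (chartData 𝓒 i).deg0).choose

lemma jacChart_spec (i : 𝓒.X.ChartIndex) :
    Nonempty (((jacPoincare 𝓒).pullbackAlong (jacChart 𝓒 i)).L ≅ (chartData 𝓒 i).M.L) :=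
  (existsUnique_classify 𝓒 (chartData 𝓒 i).M (chartData 𝓒 i).deg0).choose_spec.1

/-- A chart is the open subscheme where the universal bundle satisfies the chart condition. -/
lemma exists_jacChart_fac (i : 𝓒.X.ChartIndex) :
    ∃ b : chartScheme 𝓒 i ⟶ (locOpen 𝓒 i (jacPoincare 𝓒)).toScheme,
      IsIso b ∧ b ≫ (locOpen 𝓒 i (jacPoincare 𝓒)).ι = (jacChart 𝓒 i).1 := by
  let D := chartData 𝓒 i
  let P := jacPoincare 𝓒
  let U := locOpen 𝓒 i P
  let ch := jacChart 𝓒 i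
  have hrange : Set.range ch.1 ⊆ Set.range U.ι := by
    rintro _ ⟨x, rfl⟩
    rw [Scheme.Opens.range_ι]
    refine (mem_locAt_pullback 𝓒 i P ch x).1 ?_
    rw [locAt_congr 𝓒 i (jacChart_spec 𝓒 i), D.locAt_eq_univ]
    trivial
  let b := IsOpenImmersion.lift U.ι ch.1 hrange
  let ι : SchemeHomOver (U.ι ≫ jacToBase 𝓒) (jacToBase 𝓒) := ⟨U.ι, rfl⟩
  obtain ⟨a, ⟨ea⟩⟩ := D.exists_lift ((affDeg0_jacPoincare 𝓒).pullback ι) fun x ↦
    (mem_locAt_pullback 𝓒 i P ι x).2 x.2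
  have hb : b ≫ U.ι = ch.1 := IsOpenImmersion.lift_fac _ _ _
  have hab : a.1 ≫ b = 𝟙 U.toScheme := by
    rw [← cancel_mono U.ι, Category.assoc, hb, Category.id_comp]
    obtain ⟨e1⟩ := nonempty_pullbackAlong_comp P ch a (postComp ch a) rfl
    exact congrArg Subtype.val ((existsUnique_classify 𝓒 (P.pullbackAlong ι)
      ((affDeg0_jacPoincare 𝓒).pullback ι)).unique (y₁ := postComp ch a) (y₂ := ι)
      ⟨e1.symm ≪≫ (RigidifiedLineBundle.pullbackAlong_congr a (jacChart_spec 𝓒 i)).some ≪≫ ea⟩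
      ⟨Iso.refl _⟩)
  have hba : b ≫ a.1 = 𝟙 (chartScheme 𝓒 i) := by
    let β : SchemeHomOver (specTo k D.S) (U.ι ≫ jacToBase 𝓒) := ⟨b, by
      rw [← Category.assoc, hb]
      exact ch.2⟩
    obtain ⟨e1⟩ := nonempty_pullbackAlong_comp D.M a β (postComp a β) rfl
    obtain ⟨e2⟩ := nonempty_pullbackAlong_comp P ι β ch hb.symm
    obtain ⟨e3⟩ := nonempty_pullbackAlong_id D.M ⟨𝟙 _, Category.id_comp _⟩ rfl
    exact congrArg Subtype.val (D.hom_ext (postComp a β) ⟨𝟙 _, Category.id_comp _⟩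
      ⟨e1.symm ≪≫ (RigidifiedLineBundle.pullbackAlong_congr β ⟨ea⟩).some ≪≫ e2 ≪≫
        (jacChart_spec 𝓒 i).some ≪≫ e3.symm⟩)
  exact ⟨b, ⟨a.1, hba, hab⟩, hb⟩

lemma range_jacChart (i : 𝓒.X.ChartIndex) :
    Set.range (jacChart 𝓒 i).1 = locAt 𝓒 i (jacPoincare 𝓒) := by
  obtain ⟨b, _, hb⟩ := exists_jacChart_fac 𝓒 i
  rw [← hb, show ⇑(b ≫ (locOpen 𝓒 i (jacPoincare 𝓒)).ι) =
    ⇑(locOpen 𝓒 i (jacPoincare 𝓒)).ι ∘ ⇑b from funext fun x ↦ Scheme.Hom.comp_apply _ _ _,
    Set.range_comp, Set.range_eq_univ.2 b.surjective, Set.image_univ, Scheme.Opens.range_ι]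
  rfl

/-- The affine model of the Jacobian. -/
def jacModel : JacModel 𝓒.X where
  J := jacScheme 𝓒
  toBase := jacToBase 𝓒
  tri g := 𝓒.triOf ((jacPoincare 𝓒).pullbackAlong g)
  tri_normalised _ := 𝓒.normalised_triOf _
  tri_deg0 g := affDeg0_jacPoincare 𝓒 _ g
  tri_pullback f g := by
    obtain ⟨e⟩ := nonempty_pullbackAlong_comp (jacPoincare 𝓒) g (AffineChart.baseMap f)
      (postComp g (AffineChart.baseMap f)) rfl
    exact ⟨(𝓒.triOfPullback f ((jacPoincare 𝓒).pullbackAlong g)).congrRight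
      (triOf_equiv_of_iso 𝓒 ⟨e⟩).some⟩
  existsUnique L hn hd := by
    obtain ⟨M, ⟨e⟩⟩ := 𝓒.exists_triOf_equiv L hn
    refine (existsUnique_congr fun g ↦ ?_).1
      (existsUnique_classify 𝓒 M (affDeg0_of_deg0 (hd.congr e.symm)))
    rw [← 𝓒.nonempty_equiv_triOf_iff]
    exact ⟨fun ⟨f⟩ ↦ ⟨f.trans e⟩, fun ⟨f⟩ ↦ ⟨f.trans e.symm⟩⟩
  S i := (chartData 𝓒 i).S
  finiteType i := (chartData 𝓒 i).finiteType
  smooth i := (chartData 𝓒 i).smooth
  chart := jacChart 𝓒
  isOpenImmersion i := by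
    obtain ⟨b, _, hb⟩ := exists_jacChart_fac 𝓒 i
    rw [← hb]
    infer_instance
  mem_range_chart g i p := by
    rw [range_jacChart]
    exact mem_locAt_affine 𝓒 i (jacPoincare 𝓒) g p

/-- The Jacobian represents the bundles of degree zero on all affine points. -/
theorem jac_univ {P : SubPicCondition c ε}
    (hP : ∀ {T : Scheme.{u}} {t : T ⟶ Spec (CommRingCat.of k)} (M : RigidifiedLineBundle c ε t),
      P.P t M ↔ AffDeg0 𝓒 M) :
    Nonempty (RepresentsRelSubPic c ε P (jacDesignation 𝓒)) :=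
  ⟨{ poincare := jacPoincare 𝓒
     poincare_mem := (hP _).2 (affDeg0_jacPoincare 𝓒)
     univ := fun _ M hM ↦ existsUnique_classify 𝓒 M ((hP M).1 hM)
     zero := (existsUnique_classify 𝓒 (RigidifiedLineBundle.unit (c := c) (ε := ε) (𝟙 _))
      (affDeg0_unit 𝓒 _)).choose_spec.1 }⟩

end

end Fermat.Agent.Picard
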