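/-
S25 (properties): field valued points of the Jacobian model and their factorisation through the
covering families.
-/
import Fermat.Agent.Picard.Scheme.Model
import Fermat.Agent.Picard.Points.Covering

set_option autoImplicit false

universe u

open CategoryTheory CategoryTheory.Limits AlgebraicGeometry NeronModelInfra AlgebraicGeometry.RelPicard
open scoped TensorProduct

noncomputable section

namespace Fermat.Agent.Picard

variable {k : Type u} [Field k] [IsAlgClosed k] {X : TwoChart k}

omit [IsAlgClosed k] in
/-- A field valued point through a point, over the base. -/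
theorem exists_field_point {Z : Scheme.{u}} (f : Z ⟶ Spec (CommRingCat.of k)) (z : Z) :
    ∃ (K : Type u) (_ : Field K) (_ : IsAlgClosed K) (_ : Algebra k K)
      (g : SchemeHomOver (specTo k K) f), ∀ p, g.1 p = z := by
  let K := AlgebraicClosure (Z.residueField z)
  let i : Spec (CommRingCat.of K) ⟶ Z :=
    Spec.map (CommRingCat.ofHom (algebraMap (Z.residueField z) K)) ≫ Z.fromSpecResidueField z
  obtain ⟨ψ, hψ⟩ := Spec.map_surjective (i ≫ f)
  let : Algebra k K := ψ.hom.toAlgebra
  refine ⟨K, inferInstance, inferInstance, inferInstance, ⟨i, ?_⟩, fun p => ?_⟩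
  · rw [← hψ]
    rfl
  · show i p = z
    rw [Scheme.Hom.comp_apply]
    exact Z.fromSpecResidueField_apply z _

namespace JacModel

variable (M : JacModel X)

/-- A point with the given triple. -/
def classify {R : Type u} [CommRing R] [Algebra k R] (L : X.Tri R) (hn : L.Normalised)
    (hd : L.Deg0) : SchemeHomOver (specTo k R) M.toBase :=
  (M.existsUnique L hn hd).choose

theorem nonempty_tri_classify {R : Type u} [CommRing R] [Algebra k R] (L : X.Tri R)
    (hn : L.Normalised) (hd : L.Deg0) : Nonempty ((M.tri (M.classify L hn hd)).Equiv L) :=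
  (M.existsUnique L hn hd).choose_spec.1

theorem eq_of_equiv {R : Type u} [CommRing R] [Algebra k R]
    (g g' : SchemeHomOver (specTo k R) M.toBase) (e : (M.tri g).Equiv (M.tri g')) : g = g' :=
  (M.existsUnique (M.tri g') (M.tri_normalised g') (M.tri_deg0 g')).unique ⟨e⟩
    ⟨TwoChart.Tri.Equiv.refl _⟩

/-- A point whose triple is a pullback of the triple of another point factors through it. -/
theorem eq_postComp {R R' : Type u} [CommRing R] [Algebra k R] [CommRing R'] [Algebra k R']
    (f : R →ₐ[k] R') (g : SchemeHomOver (specTo k R) M.toBase)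
    (g' : SchemeHomOver (specTo k R') M.toBase) {L : X.Tri R} (e : (M.tri g).Equiv L)
    (P : TwoChart.Tri.Pullback f L (M.tri g')) : g' = postComp g (AffineChart.baseMap f) := by
  obtain ⟨Q⟩ := M.tri_pullback f g
  exact (M.eq_of_equiv _ _ (Q.equiv (TwoChart.Tri.Pullback.congrLeft e P))).symm

/-- The zero point. -/
def zero : SchemeHomOver (specTo k k) M.toBase :=
  M.classify (X.trivialTri k) TwoChart.Tri.normalised_trivial TwoChart.Tri.deg0_trivial

/-- A family of points passing through zero. -/
structure Family where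
  /-- parameters -/
  P : Points.Param X
  /-- the family -/
  g : SchemeHomOver (specTo k P.R) M.toBase
  isDomain : ∀ (K : Type u) [Field K] [Algebra k K], IsDomain (K ⊗[k] P.R)
  /-- the parameter of zero -/
  φ₀ : P.R →ₐ[k] k
  g_φ₀ : postComp g (AffineChart.baseMap φ₀) = M.zero

/-- Finitely many families cover all geometric points, compatibly with valuation rings. -/
theorem exists_families :
    ∃ (σ : Type) (_ : Finite σ) (F : σ → M.Family),
      ∀ (K : Type u) [Field K] [Algebra k K] [IsAlgClosed K] (V : ValuationSubring K),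
        (∀ c, algebraMap k K c ∈ V) → ∀ g : SchemeHomOver (specTo k K) M.toBase,
          ∃ (s : σ) (φ : (F s).P.R →ₐ[k] K), (∀ r, φ r ∈ V) ∧
            g = postComp (F s).g (AffineChart.baseMap φ) := by
  obtain ⟨σ, hσ, P, N, hdom, hn, hd, hbase, hcov⟩ := Points.exists_covering_families X
  choose φ₀ hφ₀ using hbase
  have e := fun s => (M.nonempty_tri_classify (N s) (hn s) (hd s)).some
  refine ⟨σ, hσ, fun s => ⟨P s, M.classify (N s) (hn s) (hd s), hdom s, φ₀ s, ?_⟩, ?_⟩
  · obtain ⟨Q⟩ := hφ₀ s
    obtain ⟨e0⟩ := M.nonempty_tri_classify (X.trivialTri k) TwoChart.Tri.normalised_trivial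
      TwoChart.Tri.deg0_trivial
    exact (M.eq_postComp (φ₀ s) _ M.zero (e s) (Q.congrRight e0.symm)).symm
  · intro K _ _ _ V hV g
    obtain ⟨s, φ, hφ, ⟨Q⟩⟩ := hcov K V hV (M.tri g) (M.tri_deg0 g)
    exact ⟨s, φ, hφ, M.eq_postComp φ _ g (e s) Q⟩

theorem exists_mem_range_chart (x : M.J) : ∃ i, x ∈ Set.range (M.chart i).1 := by
  obtain ⟨K, _, _, _, g, hg⟩ := exists_field_point M.toBase x
  obtain ⟨i, hi⟩ := TwoChart.exists_chart_mem (M.tri_deg0 g) (default : PrimeSpectrum K)
  refine ⟨i, ?_⟩
  rw [← hg (default : PrimeSpectrum K)]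
  exact (M.mem_range_chart g i default).mpr hi

end JacModel

end Fermat.Agent.Picard
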