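/-
S25 (properties): the Jacobian model is smooth, proper and geometrically connected.
-/
import Fermat.Agent.Picard.Scheme.Points
import Mathlib.AlgebraicGeometry.ValuativeCriterion
import Mathlib.AlgebraicGeometry.Geometrically.Connected

set_option autoImplicit false

universe u

open CategoryTheory CategoryTheory.Limits AlgebraicGeometry NeronModelInfra AlgebraicGeometry.RelPicard
open scoped TensorProduct

noncomputable section

namespace Fermat.Agent.Picard.JacModel

variable {k : Type u} [Field k] [IsAlgClosed k] {X : TwoChart k} (M : JacModel X)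

/-- The covering by the charts. -/
def chartCover : M.J.OpenCover :=
  Scheme.Cover.mkOfCovers X.ChartIndex (fun i => Spec (CommRingCat.of (M.S i)))
    (fun i => (M.chart i).1)
    (fun x => by obtain ⟨i, y, hy⟩ := M.exists_mem_range_chart x; exact ⟨i, y, hy⟩)
    (fun i => M.isOpenImmersion i)

theorem smooth_toBase : Smooth M.toBase := by
  refine IsZariskiLocalAtSource.of_openCover (P := @Smooth) M.chartCover fun i => ?_
  show Smooth ((M.chart i).1 ≫ M.toBase)
  rw [(M.chart i).2, HasRingHomProperty.Spec_iff (P := @Smooth)]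
  exact RingHom.smooth_algebraMap.mpr (M.smooth i)

theorem compactSpace : CompactSpace M.J := by
  obtain ⟨σ, _, F, hF⟩ := M.exists_families
  have hall : (Set.univ : Set M.J) = ⋃ s, Set.range (F s).g.1 := by
    refine Set.eq_of_subset_of_subset (fun x _ => ?_) (Set.subset_univ _)
    obtain ⟨K, _, _, _, g, hg⟩ := exists_field_point M.toBase x
    obtain ⟨s, φ, -, rfl⟩ := hF K ⊤ (fun _ => trivial) g
    refine Set.mem_iUnion.mpr ⟨s, (AffineChart.baseMap φ).1 default, ?_⟩
    rw [← hg default]
    exact (Scheme.Hom.comp_apply _ _ _).symm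
  refine ⟨?_⟩
  rw [hall]
  exact isCompact_iUnion fun s => isCompact_range (F s).g.1.continuous

theorem quasiCompact : QuasiCompact M.toBase :=
  have := M.compactSpace
  HasAffineProperty.iff_of_isAffine.mpr ‹_›

/-- Two points over the same field lie in a common chart. -/
theorem exists_common_chart (z : ↥(pullback M.toBase M.toBase)) :
    ∃ i, pullback.fst M.toBase M.toBase z ∈ Set.range (M.chart i).1 ∧
      pullback.snd M.toBase M.toBase z ∈ Set.range (M.chart i).1 := by
  obtain ⟨K, _, _, _, g, hg⟩ := exists_field_point (pullback.fst M.toBase M.toBase ≫ M.toBase) z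
  let g₁ : SchemeHomOver (specTo k K) M.toBase :=
    ⟨g.1 ≫ pullback.fst _ _, by rw [Category.assoc]; exact g.2⟩
  let g₂ : SchemeHomOver (specTo k K) M.toBase :=
    ⟨g.1 ≫ pullback.snd _ _, by rw [Category.assoc, ← pullback.condition]; exact g.2⟩
  obtain ⟨i, h₁, h₂⟩ := TwoChart.exists_common_chart (M.tri_deg0 g₁) (M.tri_deg0 g₂)
    (default : PrimeSpectrum K)
  refine ⟨i, ?_, ?_⟩
  · rw [← hg (default : PrimeSpectrum K), ← Scheme.Hom.comp_apply]
    exact (M.mem_range_chart g₁ i default).mpr h₁
  · rw [← hg (default : PrimeSpectrum K), ← Scheme.Hom.comp_apply]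
    exact (M.mem_range_chart g₂ i default).mpr h₂

theorem isSeparated : IsSeparated M.toBase where
  isClosedImmersion_diagonal := by
    refine IsClosedImmersion.of_isPreimmersion _ ?_
    rw [← isOpen_compl_iff, isOpen_iff_forall_mem_open]
    intro z hz
    obtain ⟨i, h₁, h₂⟩ := M.exists_common_chart z
    have := M.isOpenImmersion i
    let f := (M.chart i).1 ≫ M.toBase
    let e : pullback.diagonalObj f ⟶ pullback.diagonalObj M.toBase :=
      pullback.map f f M.toBase M.toBase (M.chart i).1 (M.chart i).1 (𝟙 _)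
        (Category.comp_id _) (Category.comp_id _)
    have he : z ∈ Set.range e := by
      rw [Scheme.Pullback.range_map]
      exact ⟨h₁, h₂⟩
    have hnat : pullback.diagonal f ≫ e = (M.chart i).1 ≫ pullback.diagonal M.toBase := by
      apply pullback.hom_ext <;> simp only [e, pullback.map, Category.assoc, pullback.lift_fst, pullback.lift_snd,
        pullback.diagonal_fst, pullback.diagonal_snd, pullback.diagonal_fst_assoc,
        pullback.diagonal_snd_assoc, Category.comp_id]
    have hsep : IsSeparated f := inferInstance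
    refine ⟨e '' (Set.range (pullback.diagonal f))ᶜ, ?_, ?_, ?_⟩
    · rintro _ ⟨w, hw, rfl⟩ ⟨x, hx⟩
      have hx₁ : x ∈ Set.range (M.chart i).1 := by
        refine ⟨pullback.fst f f w, ?_⟩
        have := congrArg (pullback.fst M.toBase M.toBase) hx
        rw [← Scheme.Hom.comp_apply, ← Scheme.Hom.comp_apply, pullback.diagonal_fst] at this
        simp only [Scheme.Hom.id_base, TopCat.hom_id, ContinuousMap.id_apply] at this
        rw [this, ← Scheme.Hom.comp_apply]
        exact congrArg (fun h : pullback.diagonalObj f ⟶ M.J => h w) (pullback.lift_fst _ _ _).symm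
      obtain ⟨y, rfl⟩ := hx₁
      rw [← Scheme.Hom.comp_apply, ← hnat, Scheme.Hom.comp_apply] at hx
      exact hw ⟨y, e.isOpenEmbedding.injective hx⟩
    · exact e.isOpenEmbedding.isOpenMap _ (pullback.diagonal f).isClosedMap.isClosed_range.isOpen_compl
    · obtain ⟨w, rfl⟩ := he
      refine ⟨w, fun ⟨y, hy⟩ => hz ⟨(M.chart i).1 y, ?_⟩, rfl⟩
      rw [← Scheme.Hom.comp_apply, ← hnat, Scheme.Hom.comp_apply, hy]

theorem range_subset_of_closedPoint_mem {R : Type u} [CommRing R] [IsLocalRing R]
    {Z : Scheme.{u}} (h : Spec (CommRingCat.of R) ⟶ Z) (U : Set Z) (hU : IsOpen U)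
    (hc : h (IsLocalRing.closedPoint R) ∈ U) : Set.range h ⊆ U := by
  rintro _ ⟨p, rfl⟩
  exact ((IsLocalRing.specializes_closedPoint p).map h.continuous).mem_open hU hc

theorem existence : ValuativeCriterion.Existence M.toBase := by
  intro S
  obtain ⟨R, K, i₁, i₂, ⟨w⟩⟩ := S
  constructor
  obtain ⟨ψ, hψ⟩ := Spec.map_surjective i₂
  let : Algebra k K := ((algebraMap R K).comp ψ.hom).toAlgebra
  have hK : i₁ ≫ M.toBase = specTo k K := by
    rw [w, ← hψ, ← Spec.map_comp]
    rfl
  let g : SchemeHomOver (specTo k K) M.toBase := ⟨i₁, hK⟩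
  let L := AlgebraicClosure K
  let : Algebra k L := ((algebraMap K L).comp (algebraMap k K)).toAlgebra
  let KL : K →ₐ[k] L := { algebraMap K L with commutes' := fun _ => rfl }
  obtain ⟨V, hRV, hloc⟩ :=
    IsLocalRing.exists_factor_valuationRing ((algebraMap K L).comp (algebraMap R K))
  have hkV : ∀ c, algebraMap k L c ∈ V := fun c => hRV (ψ.hom c)
  obtain ⟨σ, _, F, hF⟩ := M.exists_families
  obtain ⟨s, φ, hφ, hg⟩ := hF L V hkV (postComp g (AffineChart.baseMap KL))
  have hg' : Spec.map (CommRingCat.ofHom (algebraMap K L)) ≫ i₁ =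
      Spec.map (CommRingCat.ofHom φ.toRingHom) ≫ (F s).g.1 := congrArg Subtype.val hg
  let φV : (F s).P.R →+* V.toSubring := φ.toRingHom.codRestrict V.toSubring hφ
  let hv : Spec (CommRingCat.of V.toSubring) ⟶ M.J :=
    Spec.map (CommRingCat.ofHom φV) ≫ (F s).g.1
  have hvL : Spec.map (CommRingCat.ofHom V.toSubring.subtype) ≫ hv =
      Spec.map (CommRingCat.ofHom (algebraMap K L)) ≫ i₁ := by
    rw [hg']
    simp only [hv, ← Spec.map_comp_assoc, ← CommRingCat.ofHom_comp]
    rfl
  have : IsLocalRing V.toSubring := inferInstanceAs (IsLocalRing V)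
  obtain ⟨i, hi⟩ := M.exists_mem_range_chart (hv (IsLocalRing.closedPoint V.toSubring))
  have := M.isOpenImmersion i
  have hrange : Set.range hv ⊆ Set.range (M.chart i).1 :=
    range_subset_of_closedPoint_mem hv _ (M.chart i).1.isOpenEmbedding.isOpen_range hi
  obtain ⟨a, ha⟩ := Spec.map_surjective (IsOpenImmersion.lift (M.chart i).1 hv hrange)
  have hav : Spec.map a ≫ (M.chart i).1 = hv := by rw [ha, IsOpenImmersion.lift_fac]
  have hrK : Set.range i₁ ⊆ Set.range (M.chart i).1 := by
    rintro _ ⟨p, rfl⟩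
    have h := hrange ⟨Spec.map (CommRingCat.ofHom V.toSubring.subtype) default, rfl⟩
    rw [← Scheme.Hom.comp_apply, hvL, Scheme.Hom.comp_apply] at h
    rwa [Subsingleton.elim p]
  obtain ⟨b, hb⟩ := Spec.map_surjective (IsOpenImmersion.lift (M.chart i).1 i₁ hrK)
  have hbv : Spec.map b ≫ (M.chart i).1 = i₁ := by rw [hb, IsOpenImmersion.lift_fac]
  have hab : ∀ c, algebraMap K L (b.hom c) = (a.hom c : L) := by
    have h2 : Spec.map (a ≫ CommRingCat.ofHom V.toSubring.subtype) =
        Spec.map (b ≫ CommRingCat.ofHom (algebraMap K L)) := by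
      rw [← cancel_mono (M.chart i).1, Spec.map_comp, Spec.map_comp, Category.assoc, Category.assoc,
        hav, hbv, hvL]
    intro c
    exact (congrArg (fun f : CommRingCat.of (M.S i) ⟶ CommRingCat.of L => f.hom c)
      (Spec.map_injective h2)).symm
  have hmem : ∀ c, ∃ r, algebraMap R K r = b.hom c := by
    intro c
    rcases ValuationRing.isInteger_or_isInteger R (b.hom c) with h | h
    · exact h
    · obtain ⟨r, hr⟩ := h
      by_cases hu : IsUnit r
      · obtain ⟨u, rfl⟩ := hu
        refine ⟨(u⁻¹ : Rˣ), ?_⟩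
        rw [map_units_inv, hr, inv_inv]
      · by_cases hc : b.hom c = 0
        · exact ⟨0, by rw [map_zero, hc]⟩
        exfalso
        refine hu (hloc.map_nonunit r (IsUnit.of_mul_eq_one (⟨_, (a.hom c).2⟩) (Subtype.ext ?_)))
        show algebraMap K L (algebraMap R K r) * (a.hom c : L) = 1
        rw [← hab, ← map_mul, hr, inv_mul_cancel₀ hc, map_one]
  choose r hr using hmem
  have hinj := IsFractionRing.injective R K
  let br : M.S i →+* R :=
    { toFun := r
      map_one' := hinj (by rw [hr, map_one, map_one])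
      map_mul' := fun x y => hinj (by rw [hr, map_mul, map_mul, hr, hr])
      map_zero' := hinj (by rw [hr, map_zero, map_zero])
      map_add' := fun x y => hinj (by rw [hr, map_add, map_add, hr, hr]) }
  have hbr : CommRingCat.ofHom br ≫ CommRingCat.ofHom (algebraMap R K) = b :=
    CommRingCat.hom_ext (RingHom.ext hr)
  refine ⟨⟨Spec.map (CommRingCat.ofHom br) ≫ (M.chart i).1, ?_, ?_⟩⟩
  · show Spec.map _ ≫ Spec.map _ ≫ _ = i₁
    rw [← Spec.map_comp_assoc, hbr, hbv]
  · show (Spec.map _ ≫ (M.chart i).1) ≫ M.toBase = i₂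
    refine Eq.trans ?_ hψ
    rw [Category.assoc, (M.chart i).2, ← Spec.map_comp]
    congr 1
    ext c
    apply hinj
    show algebraMap R K (br (algebraMap k (M.S i) c)) = algebraMap k K c
    refine (hr _).trans ?_
    have h3 : Spec.map b ≫ specTo k (M.S i) = specTo k K := by
      rw [← (M.chart i).2, ← Category.assoc, hbv, hK]
    rw [← Spec.map_comp] at h3
    exact congrArg (fun f : CommRingCat.of k ⟶ CommRingCat.of K => f.hom c) (Spec.map_injective h3)

theorem isProper : IsProper M.toBase := by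
  have := M.smooth_toBase
  have : LocallyOfFinitePresentation M.toBase := inferInstance
  have := M.quasiCompact
  have := M.isSeparated
  refine IsProper.of_valuativeCriterion M.toBase (ValuativeCriterion.iff.mpr ⟨M.existence, ?_⟩)
  exact IsSeparated.valuativeCriterion M.toBase

theorem geometricallyConnected : GeometricallyConnected M.toBase := by
  constructor
  intro K _ y Z fst snd hZ
  obtain ⟨ψ, rfl⟩ := Spec.map_surjective y
  let : Algebra k K := ψ.hom.toAlgebra
  obtain ⟨σ, _, F, hF⟩ := M.exists_families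
  have hK : ∀ s, (Spec.map (CommRingCat.ofHom (Algebra.TensorProduct.includeRight :
      (F s).P.R →ₐ[k] K ⊗[k] (F s).P.R).toRingHom) ≫ (F s).g.1) ≫ M.toBase =
      Spec.map (CommRingCat.ofHom (algebraMap K (K ⊗[k] (F s).P.R))) ≫ Spec.map ψ := by
    intro s
    rw [Category.assoc, (F s).g.2, ← Spec.map_comp, ← Spec.map_comp]
    congr 1
    ext c
    show (1 : K) ⊗ₜ[k] algebraMap k (F s).P.R c = algebraMap k K c ⊗ₜ[k] 1
    rw [Algebra.algebraMap_eq_smul_one, Algebra.algebraMap_eq_smul_one, TensorProduct.smul_tmul]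
  let G : ∀ s, Spec (CommRingCat.of (K ⊗[k] (F s).P.R)) ⟶ Z := fun s => hZ.lift _ _ (hK s)
  have hz0 : M.zero.1 ≫ M.toBase = 𝟙 _ := by
    rw [M.zero.2]
    exact Spec.map_id _
  let z0 : Spec (CommRingCat.of K) ⟶ Z := hZ.lift (Spec.map ψ ≫ M.zero.1) (𝟙 _) (by
    rw [Category.assoc, hz0]; simp)
  have hthrough : ∀ s, z0 default ∈ Set.range (G s) := by
    intro s
    let χ : K ⊗[k] (F s).P.R →ₐ[k] K :=
      Algebra.TensorProduct.lift (AlgHom.id k K) ((Algebra.ofId k K).comp (F s).φ₀)
        fun _ _ => Commute.all _ _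
    refine ⟨Spec.map (CommRingCat.ofHom χ.toRingHom) default, ?_⟩
    rw [← Scheme.Hom.comp_apply]
    refine congrArg (fun h : _ ⟶ Z => h default) (hZ.hom_ext ?_ ?_)
    · rw [Category.assoc, hZ.lift_fst, hZ.lift_fst, ← Spec.map_comp_assoc, ← (F s).g_φ₀]
      show _ = Spec.map ψ ≫ Spec.map _ ≫ (F s).g.1
      rw [← Spec.map_comp_assoc]
      congr 2
      ext r
      show χ ((1 : K) ⊗ₜ[k] r) = ψ.hom ((F s).φ₀ r)
      simp [χ]
      rfl
    · rw [Category.assoc, hZ.lift_snd, hZ.lift_snd, ← Spec.map_comp]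
      convert Spec.map_id (CommRingCat.of K)
      ext c
      show χ (c ⊗ₜ[k] 1) = c
      simp [χ]
  have hall : (Set.univ : Set Z) = ⋃₀ Set.range fun s => Set.range (G s) := by
    refine Set.eq_of_subset_of_subset (fun z _ => ?_) (Set.subset_univ _)
    obtain ⟨L, _, _, _, g, hg⟩ := exists_field_point (fst ≫ M.toBase) z
    let gJ : SchemeHomOver (specTo k L) M.toBase :=
      ⟨g.1 ≫ fst, by rw [Category.assoc]; exact g.2⟩
    obtain ⟨s, φ, -, hs⟩ := hF L ⊤ (fun _ => trivial) gJ
    have hs' : g.1 ≫ fst = Spec.map (CommRingCat.ofHom φ.toRingHom) ≫ (F s).g.1 :=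
      congrArg Subtype.val hs
    obtain ⟨θ, hθ⟩ := Spec.map_surjective (g.1 ≫ snd)
    have hθk : ψ ≫ θ = CommRingCat.ofHom (algebraMap k L) := Spec.map_injective (by
      rw [Spec.map_comp, hθ, Category.assoc, ← hZ.w]
      exact g.2)
    let θa : K →ₐ[k] L :=
      { θ.hom with
        commutes' := fun c =>
          congrArg (fun f : CommRingCat.of k ⟶ CommRingCat.of L => f.hom c) hθk }
    let χ : K ⊗[k] (F s).P.R →ₐ[k] L :=
      Algebra.TensorProduct.lift θa φ fun _ _ => Commute.all _ _
    refine ⟨_, ⟨s, rfl⟩, Spec.map (CommRingCat.ofHom χ.toRingHom) default, ?_⟩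
    rw [← Scheme.Hom.comp_apply, ← hg default]
    refine congrArg (fun h : _ ⟶ Z => h default) (hZ.hom_ext ?_ ?_)
    · rw [Category.assoc, hZ.lift_fst, hs', ← Spec.map_comp_assoc]
      congr 2
      ext r
      show χ ((1 : K) ⊗ₜ[k] r) = φ r
      simp [χ]
    · rw [Category.assoc, hZ.lift_snd, ← hθ, ← Spec.map_comp]
      congr 1
      ext c
      show χ (c ⊗ₜ[k] 1) = θ.hom c
      simp [χ, θa]
  refine { toPreconnectedSpace := ⟨?_⟩, toNonempty := ⟨z0 default⟩ }
  rw [hall]
  refine isPreconnected_sUnion (z0 default) _ ?_ ?_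
  · rintro _ ⟨s, rfl⟩
    exact hthrough s
  · rintro _ ⟨s, rfl⟩
    have := (F s).isDomain K
    have : IsIntegral (Spec (CommRingCat.of (K ⊗[k] (F s).P.R))) := inferInstance
    exact isPreconnected_range (G s).continuous

end Fermat.Agent.Picard.JacModel
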