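/-
Existence of the Jacobian of a smooth proper curve over an algebraically closed field.
-/
import Fermat.Agent.Picard.Curve.Main
import Fermat.Agent.Picard.Scheme.Jacobian
import Fermat.Agent.Picard.Scheme.AlgEquiv
import Fermat.Agent.Picard.Scheme.Properties

set_option autoImplicit false

universe u

open CategoryTheory CategoryTheory.Limits AlgebraicGeometry AlgebraicGeometry.RelPicard NeronModelInfra
  GoodReductionJacobian

namespace Fermat.Agent.Picard

variable {k : Type u} [Field k] [IsAlgClosed k] {C : Scheme.{u}}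
  {c : C ⟶ Spec (CommRingCat.of k)}
  {ε : SchemeHomOver (𝟙 (Spec (CommRingCat.of k))) c}

/-- The Jacobian of a curve with a chart model. -/
theorem exists_jacobian_of_curveModel (𝓒 : CurveModel c ε) :
    ∃ D : RelativePic0Designation k c,
      Nonempty (RepresentsRelSubPic c ε (algEquivZeroCut c ε) D) ∧
        Smooth D.toBase ∧ IsProper D.toBase ∧ GeometricallyConnected D.toBase :=
  ⟨jacDesignation 𝓒,
    jac_univ 𝓒 fun M ↦ 𝓒.fibrewiseAlgEquivZero_iff_deg0 M,
    (jacModel 𝓒).smooth_toBase, (jacModel 𝓒).isProper, (jacModel 𝓒).geometricallyConnected⟩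

end Fermat.Agent.Picard
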